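import Fermat.Agent.RED.DRH.Param

/-!
# DRH: the `RatFunc K`-algebra structure on `F` attached to a separating parameter
-/

set_option autoImplicit false
set_option linter.unusedSectionVars false
set_option linter.style.haveILetI false

open AlgebraicCurve IntermediateField Polynomial
open Fermat.Agent.S24

namespace Fermat.Agent.RED.DRH

variable {K F : Type*} [Field K] [Field F] [Algebra K F] {x : F}

/-- `K[X] → F`, `X ↦ x`. -/
@[reducible] noncomputable def polyAlgebra (K : Type*) {F : Type*} [Field K] [Field F]
    [Algebra K F] (x : F) : Algebra K[X] F := (aeval x : K[X] →ₐ[K] F).toRingHom.toAlgebra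

/-- `K(X) → F`, `X ↦ x`. -/
@[reducible] noncomputable def ratAlgebra (ht : Transcendental K x) : Algebra (RatFunc K) F :=
  ((algebraMap K⟮x⟯ F).comp
    (RatFunc.algEquivOfTranscendental x ht : RatFunc K →+* K⟮x⟯)).toAlgebra

theorem ratAlgebra_algebraMap (ht : Transcendental K x) (r : RatFunc K) :
    letI := ratAlgebra ht
    algebraMap (RatFunc K) F r = (RatFunc.algEquivOfTranscendental x ht r : F) := rfl

theorem ratAlgebra_X (ht : Transcendental K x) :
    letI := ratAlgebra ht
    algebraMap (RatFunc K) F RatFunc.X = x := by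
  rw [ratAlgebra_algebraMap, RatFunc.algEquivOfTranscendental_X]

theorem isScalarTower_poly_rat (ht : Transcendental K x) :
    letI := ratAlgebra ht
    letI := polyAlgebra K x
    IsScalarTower K[X] (RatFunc K) F := by
  letI := ratAlgebra ht
  letI := polyAlgebra K x
  refine IsScalarTower.of_algebraMap_eq fun p => ?_
  rw [ratAlgebra_algebraMap, RatFunc.algEquivOfTranscendental_algebraMap]
  show aeval x p = _
  rw [← IntermediateField.algebraMap_apply, ← Polynomial.aeval_algebraMap_apply]
  rfl

theorem isScalarTower_K_poly (x : F) :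
    letI := polyAlgebra K x
    IsScalarTower K K[X] F := by
  letI := polyAlgebra K x
  refine IsScalarTower.of_algebraMap_eq fun c => ?_
  show _ = aeval x (algebraMap K K[X] c)
  rw [Polynomial.algebraMap_eq, aeval_C]

theorem isScalarTower_K_rat (ht : Transcendental K x) :
    letI := ratAlgebra ht
    IsScalarTower K (RatFunc K) F := by
  letI := ratAlgebra ht
  refine IsScalarTower.of_algebraMap_eq fun c => ?_
  rw [ratAlgebra_algebraMap, AlgEquiv.commutes]
  rfl

theorem ratAlgebra_comp (ht : Transcendental K x) :
    letI := ratAlgebra ht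
    (algebraMap (RatFunc K) F).comp
      ((RatFunc.algEquivOfTranscendental x ht).symm.toRingEquiv : K⟮x⟯ →+* RatFunc K) =
      ((RingEquiv.refl F : F ≃+* F) : F →+* F).comp (algebraMap K⟮x⟯ F) := by
  letI := ratAlgebra ht
  ext z
  simp [ratAlgebra_algebraMap]

theorem finiteDimensional_rat (hx : IsSepParam K x) :
    letI := ratAlgebra hx.transcendental
    FiniteDimensional (RatFunc K) F := by
  letI := ratAlgebra hx.transcendental
  have := hx.finite
  exact Module.Finite.of_equiv_equiv
    (RatFunc.algEquivOfTranscendental x hx.transcendental).symm.toRingEquiv (RingEquiv.refl F)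
    (ratAlgebra_comp hx.transcendental)

theorem isSeparable_rat (hx : IsSepParam K x) :
    letI := ratAlgebra hx.transcendental
    Algebra.IsSeparable (RatFunc K) F := by
  letI := ratAlgebra hx.transcendental
  have := hx.separable
  exact Algebra.IsSeparable.of_equiv_equiv
    (RatFunc.algEquivOfTranscendental x hx.transcendental).symm.toRingEquiv (RingEquiv.refl F)
    (ratAlgebra_comp hx.transcendental)

theorem finrank_rat (ht : Transcendental K x) :
    letI := ratAlgebra ht
    Module.finrank (RatFunc K) F = Module.finrank K⟮x⟯ F := by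
  letI := ratAlgebra ht
  exact (Algebra.finrank_eq_of_equiv_equiv
    (RatFunc.algEquivOfTranscendental x ht).symm.toRingEquiv (RingEquiv.refl F)
    (ratAlgebra_comp ht)).symm

/-- compatibility of the models in a tower `F₁ ⊆ F₂`. -/
theorem isScalarTower_rat_tower {F₁ F₂ : Type*} [Field F₁] [Field F₂] [Algebra K F₁]
    [Algebra K F₂] [Algebra F₁ F₂] [IsScalarTower K F₁ F₂] {x : F₁} (ht₁ : Transcendental K x)
    (ht₂ : Transcendental K (algebraMap F₁ F₂ x)) :
    letI := ratAlgebra ht₁
    letI := ratAlgebra ht₂
    IsScalarTower (RatFunc K) F₁ F₂ := by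
  letI := ratAlgebra ht₁
  letI := ratAlgebra ht₂
  refine IsScalarTower.of_algebraMap_eq fun r => ?_
  rw [ratAlgebra_algebraMap, ratAlgebra_algebraMap, RatFunc.algEquivOfTranscendental_apply,
    RatFunc.algEquivOfTranscendental_apply, map_div₀, Polynomial.aeval_algebraMap_apply,
    Polynomial.aeval_algebraMap_apply]

theorem isScalarTower_poly_tower {F₁ F₂ : Type*} [Field F₁] [Field F₂] [Algebra K F₁]
    [Algebra K F₂] [Algebra F₁ F₂] [IsScalarTower K F₁ F₂] (x : F₁) :
    letI := polyAlgebra K x
    letI := polyAlgebra K (algebraMap F₁ F₂ x)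
    IsScalarTower K[X] F₁ F₂ := by
  letI := polyAlgebra K x
  letI := polyAlgebra K (algebraMap F₁ F₂ x)
  refine IsScalarTower.of_algebraMap_eq fun p => ?_
  show aeval (algebraMap F₁ F₂ x) p = algebraMap F₁ F₂ (aeval x p)
  rw [Polynomial.aeval_algebraMap_apply]

/-- **Riemann-Hurwitz in discriminant form**, for a separating parameter. -/
theorem IsSepParam.two_gR_sub_two [IsAlgClosed K] (hx : IsSepParam K x) :
    letI := ratAlgebra hx.transcendental
    letI := polyAlgebra K x
    haveI := isScalarTower_poly_rat hx.transcendental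
    haveI := isScalarTower_K_poly (K := K) x
    haveI := isScalarTower_K_rat hx.transcendental
    haveI := finiteDimensional_rat hx
    haveI := isSeparable_rat hx
    2 * gR K F - 2 = -2 * (Module.finrank K⟮x⟯ F : ℤ) + (disc0 K F).toNat + (disc1 K F).toNat := by
  letI := ratAlgebra hx.transcendental
  letI := polyAlgebra K x
  haveI := isScalarTower_poly_rat hx.transcendental
  haveI := isScalarTower_K_poly (K := K) x
  haveI := isScalarTower_K_rat hx.transcendental
  haveI := finiteDimensional_rat hx
  haveI := isSeparable_rat hx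
  exact DRH.two_gR_sub_two (ratAlgebra_X hx.transcendental) hx (finrank_rat hx.transcendental)

end Fermat.Agent.RED.DRH
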