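import Mathlib

/-!
# Degree of ideals in Dedekind domains over a field, and the degree of the different

Pure Dedekind-domain half of the discriminant form of Riemann--Hurwitz (any characteristic).
-/

set_option autoImplicit false
set_option linter.unusedSectionVars false
set_option linter.deprecated false
set_option linter.style.haveILetI false

open UniqueFactorizationMonoid Module

namespace Fermat.Agent.RED.DRH

attribute [local instance] FractionRing.liftAlgebra FractionRing.isScalarTower_liftAlgebra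

/-- all residue fields of `B` at maximal ideals are equal to `K`. -/
def ResK (K B : Type*) [Field K] [CommRing B] [Algebra K B] : Prop :=
  ∀ P : Ideal B, P.IsMaximal → Function.Surjective (algebraMap K (B ⧸ P))

/-- degree of an ideal of a Dedekind domain (number of prime factors with multiplicity). -/
noncomputable def ideg {B : Type*} [CommRing B] [IsDedekindDomain B] (I : Ideal B) : ℕ :=
  Multiset.card (normalizedFactors I)

section ideg

variable {B : Type*} [CommRing B] [IsDedekindDomain B]

theorem ideg_mul {I J : Ideal B} (hI : I ≠ ⊥) (hJ : J ≠ ⊥) : ideg (I * J) = ideg I + ideg J := by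
  unfold ideg
  rw [normalizedFactors_mul hI hJ, Multiset.card_add]

theorem ideg_top : ideg (⊤ : Ideal B) = 0 := by
  unfold ideg
  rw [← Ideal.one_eq_top, normalizedFactors_one, Multiset.card_zero]

theorem ideg_prime {P : Ideal B} (hP : Prime P) : ideg P = 1 := by
  unfold ideg
  rw [normalizedFactors_irreducible hP.irreducible, normalize_eq, Multiset.card_singleton]

theorem ideg_pow {I : Ideal B} (n : ℕ) : ideg (I ^ n) = n * ideg I := by
  unfold ideg
  rw [normalizedFactors_pow, Multiset.card_nsmul]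

theorem ideg_le_of_dvd {I J : Ideal B} (hJ : J ≠ ⊥) (h : I ∣ J) : ideg I ≤ ideg J := by
  obtain ⟨X, rfl⟩ := h
  have hI : I ≠ ⊥ := fun h => hJ (by rw [h, Ideal.bot_mul])
  have hX : X ≠ ⊥ := fun h => hJ (by rw [h, Ideal.mul_bot])
  rw [ideg_mul hI hX]
  exact Nat.le_add_right _ _

end ideg

section finrank

variable (K : Type*) [Field K] {B : Type*} [CommRing B] [IsDedekindDomain B] [Algebra K B]

/-- no ideal strictly between `P * I` and `I`. -/
theorem span_sup_mul_eq {P I : Ideal B} (hP : Prime P) (hI : I ≠ ⊥) {a : B} (haI : a ∈ I)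
    (ha : a ∉ P * I) : Ideal.span {a} ⊔ P * I = I := by
  have h1 : Ideal.span {a} ⊔ P * I ≤ I :=
    sup_le ((Ideal.span_singleton_le_iff_mem _).2 haI) Ideal.mul_le_right
  obtain ⟨Y, hY⟩ := Ideal.dvd_iff_le.2 h1
  have h2 : I * Y ∣ P * I := by
    rw [← hY]
    exact Ideal.dvd_iff_le.2 le_sup_right
  rw [mul_comm P I] at h2
  have h3 : Y ∣ P := (mul_dvd_mul_iff_left hI).1 h2
  rcases (hP.irreducible.dvd_iff.1 h3) with h | h
  · rw [hY, Ideal.isUnit_iff.1 h, Ideal.mul_top]
  · exfalso
    apply ha
    have h4 : Y = P := (associated_iff_eq.1 h).symm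
    rw [mul_comm, ← h4, ← hY]
    exact Ideal.mem_sup_left (Ideal.mem_span_singleton_self a)

theorem finrank_quotient_mul_prime {P I : Ideal B} (hP : Prime P) (hI : I ≠ ⊥)
    (hres : Function.Surjective (algebraMap K (B ⧸ P))) (hfin : Module.Finite K (B ⧸ I)) :
    Module.Finite K (B ⧸ P * I) ∧ finrank K (B ⧸ P * I) = finrank K (B ⧸ I) + 1 := by
  classical
  have hle : P * I ≤ I := Ideal.mul_le_right
  have hne : P * I ≠ I := by
    intro h
    have h1 : P = 1 := (mul_eq_right₀ hI).1 h
    exact hP.not_isUnit (h1 ▸ isUnit_one)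
  obtain ⟨a, haI, ha⟩ : ∃ a ∈ I, a ∉ P * I := by
    by_contra hcon
    apply hne
    refine le_antisymm hle ?_
    intro x hx
    by_contra hx'
    exact hcon ⟨x, hx, hx'⟩
  let φ : (B ⧸ P * I) →ₗ[K] (B ⧸ I) := (Ideal.Quotient.factorₐ K hle).toLinearMap
  have hφ : Function.Surjective φ := Ideal.Quotient.factor_surjective hle
  have hφmk : ∀ x : B, φ (Ideal.Quotient.mk (P * I) x) = Ideal.Quotient.mk I x := fun x => rfl
  have hker : LinearMap.ker φ = K ∙ (Ideal.Quotient.mk (P * I) a) := by
    apply le_antisymm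
    · intro z hz
      obtain ⟨x, rfl⟩ := Ideal.Quotient.mk_surjective z
      rw [LinearMap.mem_ker, hφmk, Ideal.Quotient.eq_zero_iff_mem] at hz
      rw [← span_sup_mul_eq hP hI haI ha, Submodule.mem_sup] at hz
      obtain ⟨y, hy, w, hw, rfl⟩ := hz
      obtain ⟨b, rfl⟩ := Ideal.mem_span_singleton'.1 hy
      obtain ⟨c, hc⟩ := hres (Ideal.Quotient.mk P b)
      rw [Submodule.mem_span_singleton]
      refine ⟨c, ?_⟩
      rw [Algebra.smul_def, IsScalarTower.algebraMap_apply K B (B ⧸ P * I),
        Ideal.Quotient.algebraMap_eq, ← map_mul, Ideal.Quotient.eq]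
      have h1 : algebraMap K B c - b ∈ P := by
        rw [← Ideal.Quotient.eq, ← hc]
        rfl
      have h2 : algebraMap K B c * a - (b * a + w) = (algebraMap K B c - b) * a - w := by ring
      rw [h2]
      exact sub_mem (Ideal.mul_mem_mul h1 haI) hw
    · rw [Submodule.span_singleton_le_iff_mem, LinearMap.mem_ker, hφmk,
        Ideal.Quotient.eq_zero_iff_mem]
      exact haI
  have hfk : Module.Finite K (LinearMap.ker φ) := by
    rw [hker]
    infer_instance
  have hfq : Module.Finite K ((B ⧸ P * I) ⧸ LinearMap.ker φ) :=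
    Module.Finite.equiv (φ.quotKerEquivOfSurjective hφ).symm
  have hfin' : Module.Finite K (B ⧸ P * I) := Module.Finite.of_submodule_quotient (LinearMap.ker φ)
  refine ⟨hfin', ?_⟩
  have h := LinearMap.finrank_range_add_finrank_ker φ
  rw [LinearMap.range_eq_top.2 hφ, finrank_top, hker, finrank_span_singleton] at h
  · exact h.symm
  · intro h0
    exact ha (Ideal.Quotient.eq_zero_iff_mem.1 h0)

theorem finite_and_finrank_quotient (hB : ResK K B) {I : Ideal B} (hI : I ≠ ⊥) :
    Module.Finite K (B ⧸ I) ∧ finrank K (B ⧸ I) = ideg I := by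
  induction I using UniqueFactorizationMonoid.induction_on_prime with
  | h₁ => exact absurd rfl hI
  | h₂ x hx =>
    rw [Ideal.isUnit_iff.1 hx, ideg_top]
    have : Subsingleton (B ⧸ (⊤ : Ideal B)) := Ideal.Quotient.subsingleton_iff.2 rfl
    exact ⟨inferInstance, finrank_zero_of_subsingleton⟩
  | h₃ a p ha hp ih =>
    obtain ⟨h1, h2⟩ := ih ha
    have hpm : p.IsMaximal :=
      ((Ideal.prime_iff_isPrime hp.ne_zero).1 hp).isMaximal hp.ne_zero
    obtain ⟨h3, h4⟩ := finrank_quotient_mul_prime K hp ha (hB p hpm) h1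
    refine ⟨h3, ?_⟩
    rw [h4, h2, ideg_mul hp.ne_zero ha, ideg_prime hp, add_comm]

theorem finite_quotient (hB : ResK K B) {I : Ideal B} (hI : I ≠ ⊥) : Module.Finite K (B ⧸ I) :=
  (finite_and_finrank_quotient K hB hI).1

theorem finrank_quotient (hB : ResK K B) {I : Ideal B} (hI : I ≠ ⊥) :
    finrank K (B ⧸ I) = ideg I :=
  (finite_and_finrank_quotient K hB hI).2

theorem finrank_quotient_maximal (hB : ResK K B) {P : Ideal B} (hP : P.IsMaximal) :
    finrank K (B ⧸ P) = 1 := by
  rw [finrank_eq_one_iff_of_nonzero' (1 : B ⧸ P) one_ne_zero]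
  intro x
  obtain ⟨c, rfl⟩ := hB P hP x
  exact ⟨c, by rw [Algebra.smul_def, mul_one]⟩

end finrank

section count

variable {B : Type*} [CommRing B] [IsDedekindDomain B]

open Classical in
theorem pow_dvd_iff_le_count {P I : Ideal B} (hP : Prime P) (hI : I ≠ ⊥) (k : ℕ) :
    P ^ k ∣ I ↔ k ≤ Multiset.count P (normalizedFactors I) := by
  rw [pow_dvd_iff_le_emultiplicity, emultiplicity_eq_count_normalizedFactors hP.irreducible hI,
    normalize_eq]
  exact Nat.cast_le

open Classical in
theorem sum_count_le_ideg (I : Ideal B) (T : Finset (Ideal B)) :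
    ∑ P ∈ T, Multiset.count P (normalizedFactors I) ≤ ideg I := by
  unfold ideg
  rw [← Multiset.toFinset_sum_count_eq]
  have h1 : ∑ P ∈ T, Multiset.count P (normalizedFactors I) =
      ∑ P ∈ (normalizedFactors I).toFinset ∩ T, Multiset.count P (normalizedFactors I) := by
    symm
    apply Finset.sum_subset Finset.inter_subset_right
    intro P hPT hP
    rw [Multiset.count_eq_zero]
    intro h
    exact hP (Finset.mem_inter.2 ⟨Multiset.mem_toFinset.2 h, hPT⟩)
  rw [h1]
  exact Finset.sum_le_sum_of_subset Finset.inter_subset_left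

open Classical in
theorem sum_count_eq_ideg (I : Ideal B) (T : Finset (Ideal B))
    (hT : ∀ P ∈ normalizedFactors I, P ∈ T) :
    ∑ P ∈ T, Multiset.count P (normalizedFactors I) = ideg I :=
  Multiset.sum_count_eq_card hT

end count

section ext

variable (K : Type*) [Field K]
  (A : Type*) [CommRing A] [IsDedekindDomain A] [Algebra K A]
  (B : Type*) [CommRing B] [IsDedekindDomain B] [Algebra K B] [Algebra A B] [IsScalarTower K A B]
  [IsTorsionFree A B] [Module.Finite A B]
  (E F : Type*) [Field E] [Field F] [Algebra A E] [IsFractionRing A E] [Algebra B F]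
  [IsFractionRing B F] [Algebra E F] [Algebra A F] [IsScalarTower A E F] [IsScalarTower A B F]

variable {A} in
theorem map_ne_bot {I : Ideal A} (hI : I ≠ ⊥) : I.map (algebraMap A B) ≠ ⊥ :=
  (Ideal.map_eq_bot_iff_of_injective (FaithfulSMul.algebraMap_injective A B)).not.mpr hI

variable {A B} in
include E F in
theorem ideg_map_maximal (hA : ResK K A) (hB : ResK K B) {p : Ideal A} (hpm : p.IsMaximal)
    (hp : p ≠ ⊥) : ideg (p.map (algebraMap A B)) = finrank E F := by
  rw [← finrank_quotient K hB (map_ne_bot B hp), ← Ideal.finrank_quotient_map (S := B) p E F]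
  haveI : IsScalarTower K (A ⧸ p) (B ⧸ p.map (algebraMap A B)) :=
    IsScalarTower.of_algebraMap_eq (fun x => by
      rw [IsScalarTower.algebraMap_apply K A (A ⧸ p), IsScalarTower.algebraMap_apply K B (B ⧸ _),
        IsScalarTower.algebraMap_apply K A B]
      rfl)
  haveI : Module.Free (A ⧸ p) (B ⧸ p.map (algebraMap A B)) := by
    letI := Ideal.Quotient.field p
    exact Module.Free.of_divisionRing _ _
  rw [← finrank_mul_finrank K (A ⧸ p) (B ⧸ p.map (algebraMap A B)),
    finrank_quotient_maximal K hA hpm, one_mul]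

variable {A B} in
include E F in
theorem ideg_map (hA : ResK K A) (hB : ResK K B) {I : Ideal A} (hI : I ≠ ⊥) :
    ideg (I.map (algebraMap A B)) = finrank E F * ideg I := by
  induction I using UniqueFactorizationMonoid.induction_on_prime with
  | h₁ => exact absurd rfl hI
  | h₂ x hx =>
    rw [Ideal.isUnit_iff.1 hx, Ideal.map_top, ideg_top, ideg_top, mul_zero]
  | h₃ a p ha hp ih =>
    have hpm : p.IsMaximal :=
      ((Ideal.prime_iff_isPrime hp.ne_zero).1 hp).isMaximal hp.ne_zero
    rw [Ideal.map_mul, ideg_mul (map_ne_bot B hp.ne_zero) (map_ne_bot B ha), ih ha,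
      ideg_map_maximal K E F hA hB hpm hp.ne_zero, ideg_mul hp.ne_zero ha, ideg_prime hp]
    ring

open nonZeroDivisors in
include E F in
/-- transfer of separability to the canonical fraction fields (needed by `differentIdeal`). -/
theorem isSeparable_fractionRing [Algebra.IsSeparable E F] :
    Algebra.IsSeparable (FractionRing A) (FractionRing B) := by
  have H : RingHom.comp (algebraMap (FractionRing A) (FractionRing B))
      ↑(FractionRing.algEquiv A E).symm.toRingEquiv =
        RingHom.comp ↑(FractionRing.algEquiv B F).symm.toRingEquiv (algebraMap E F) := by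
    apply IsLocalization.ringHom_ext A⁰
    ext
    simp only [RingHom.coe_comp, RingHom.coe_coe,
      AlgEquiv.coe_ringEquiv, Function.comp_apply, AlgEquiv.commutes,
      ← IsScalarTower.algebraMap_apply]
    rw [IsScalarTower.algebraMap_apply A B F, AlgEquiv.commutes, ← IsScalarTower.algebraMap_apply]
  exact Algebra.IsSeparable.of_equiv_equiv _ _ H

open Classical in
/-- ramification index of a prime `P` of `B` over `A`. -/
noncomputable def eidx {B : Type*} [CommRing B] [IsDedekindDomain B] [Algebra A B]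
    (P : Ideal B) : ℕ :=
  Multiset.count P (normalizedFactors ((P.under A).map (algebraMap A B)))

variable {B}

theorem under_ne_bot {P : Ideal B} (hP0 : P ≠ ⊥) : P.under A ≠ ⊥ :=
  mt Ideal.eq_bot_of_comap_eq_bot hP0

theorem under_isMaximal {P : Ideal B} (hP : P.IsPrime) (hP0 : P ≠ ⊥) : (P.under A).IsMaximal :=
  (Ideal.IsPrime.under A P).isMaximal (under_ne_bot A hP0)

theorem one_le_eidx {P : Ideal B} (hP : P.IsPrime) (hP0 : P ≠ ⊥) : 1 ≤ eidx A P := by
  unfold eidx
  rw [← pow_dvd_iff_le_count ((Ideal.prime_iff_isPrime hP0).2 hP)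
    (map_ne_bot B (under_ne_bot A hP0)), pow_one, Ideal.dvd_iff_le]
  exact Ideal.map_comap_le

open Classical in
variable {A} in
theorem count_eq_eidx {p : Ideal A} {P : Ideal B} (h : P.LiesOver p) :
    Multiset.count P (normalizedFactors (p.map (algebraMap A B))) = eidx A P := by
  unfold eidx
  rw [← h.over]

open Classical in
theorem eidx_sub_one_le_count [Algebra.IsSeparable (FractionRing A) (FractionRing B)]
    {P : Ideal B} (hP : P.IsPrime) (hP0 : P ≠ ⊥) :
    eidx A P - 1 ≤ Multiset.count P (normalizedFactors (differentIdeal A B)) := by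
  haveI := under_isMaximal A hP hP0
  have hPp := (Ideal.prime_iff_isPrime hP0).2 hP
  rw [← pow_dvd_iff_le_count hPp differentIdeal_ne_bot]
  apply pow_sub_one_dvd_differentIdeal A P (eidx A P) (under_ne_bot A hP0)
  rw [pow_dvd_iff_le_count hPp (map_ne_bot B (under_ne_bot A hP0))]
  exact le_rfl

/-- tame primes: `P ^ e` does not divide the different. -/
theorem not_pow_eidx_dvd_differentIdeal [Algebra.IsSeparable (FractionRing A) (FractionRing B)]
    (hA : ResK K A) (hB : ResK K B) {P : Ideal B} (hP : P.IsPrime) (hP0 : P ≠ ⊥)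
    (htame : (eidx A P : K) ≠ 0) : ¬ P ^ eidx A P ∣ differentIdeal A B := by
  classical
  have hp : P.under A ≠ ⊥ := under_ne_bot A hP0
  haveI hpm : (P.under A).IsMaximal := under_isMaximal A hP hP0
  haveI hPm : P.IsMaximal := hP.isMaximal hP0
  obtain ⟨Q, h₁, h₂⟩ := Ideal.eq_prime_pow_mul_coprime (map_ne_bot B hp) P
  change _ = P ^ eidx A P * Q at h₂
  generalize eidx A P = e at h₂ htame
  generalize P.under A = p at hp hpm h₂
  have hcop : IsCoprime (P ^ e) Q := (Ideal.isCoprime_iff_sup_eq.2 h₁).pow_left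
  letI : Algebra (A ⧸ p) (B ⧸ Q) := Ideal.Quotient.algebraQuotientOfLEComap (by
      rw [← Ideal.map_le_iff_le_comap, h₂]
      exact Ideal.mul_le_right)
  letI : Algebra (A ⧸ p) (B ⧸ P ^ e) := Ideal.Quotient.algebraQuotientOfLEComap (by
      rw [← Ideal.map_le_iff_le_comap, h₂]
      exact Ideal.mul_le_left)
  haveI : IsScalarTower A (A ⧸ p) (B ⧸ Q) := .of_algebraMap_eq' rfl
  haveI : IsScalarTower A (A ⧸ p) (B ⧸ P ^ e) := .of_algebraMap_eq' rfl
  haveI : Module.Finite (A ⧸ p) (B ⧸ Q) :=
    Module.Finite.of_restrictScalars_finite A (A ⧸ p) (B ⧸ Q)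
  haveI : Module.Finite (A ⧸ p) (B ⧸ P ^ e) :=
    Module.Finite.of_restrictScalars_finite A (A ⧸ p) (B ⧸ P ^ e)
  haveI : Module.Free (A ⧸ p) (B ⧸ Q) := by
    letI := Ideal.Quotient.field p
    exact Module.Free.of_divisionRing _ _
  haveI : Module.Free (A ⧸ p) (B ⧸ P ^ e) := by
    letI := Ideal.Quotient.field p
    exact Module.Free.of_divisionRing _ _
  haveI : IsScalarTower K (A ⧸ p) (B ⧸ P ^ e) :=
    IsScalarTower.of_algebraMap_eq (fun x => by
      rw [IsScalarTower.algebraMap_apply K A (A ⧸ p), IsScalarTower.algebraMap_apply K B (B ⧸ _),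
        IsScalarTower.algebraMap_apply K A B]
      rfl)
  have hfr : finrank (A ⧸ p) (B ⧸ P ^ e) = e := by
    have h := finrank_mul_finrank K (A ⧸ p) (B ⧸ P ^ e)
    rw [finrank_quotient_maximal K hA hpm, one_mul,
      finrank_quotient K hB (pow_ne_zero _ hP0), ideg_pow,
      ideg_prime ((Ideal.prime_iff_isPrime hP0).2 hP), mul_one] at h
    exact h
  let e' : (B ⧸ p.map (algebraMap A B)) ≃ₐ[A ⧸ p] ((B ⧸ P ^ e) × B ⧸ Q) :=
    { __ := (Ideal.quotEquivOfEq h₂).trans (Ideal.quotientMulEquivQuotientProd (P ^ e) Q hcop),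
      commutes' := Quotient.ind fun _ ↦ rfl }
  obtain ⟨y, hy⟩ := Ideal.Quotient.mk_surjective (e'.symm (1, 0))
  refine not_dvd_differentIdeal_of_intTrace_not_mem A (P ^ e) Q h₂.symm y ?_ ?_
  · have := congr((e' $hy).2)
    simp at this
    simpa [e', Ideal.Quotient.eq_zero_iff_mem] using this
  · rw [← Ideal.Quotient.eq_zero_iff_mem, ← Algebra.trace_quotient_eq_of_isDedekindDomain,
      hy, Algebra.trace_eq_of_algEquiv, Algebra.trace_prod_apply]
    simp only [map_zero, add_zero]
    rw [← map_one (algebraMap (A ⧸ p) (B ⧸ P ^ e)), Algebra.trace_algebraMap, hfr, nsmul_eq_mul,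
      mul_one, ← map_natCast (algebraMap K (A ⧸ p))]
    exact fun h => htame ((map_eq_zero_iff _ (algebraMap K (A ⧸ p)).injective).1 h)

open Classical in
theorem count_differentIdeal_of_tame [Algebra.IsSeparable (FractionRing A) (FractionRing B)]
    (hA : ResK K A) (hB : ResK K B) {P : Ideal B} (hP : P.IsPrime) (hP0 : P ≠ ⊥)
    (htame : (eidx A P : K) ≠ 0) :
    Multiset.count P (normalizedFactors (differentIdeal A B)) = eidx A P - 1 := by
  have h1 := eidx_sub_one_le_count A hP hP0
  have h2 := not_pow_eidx_dvd_differentIdeal K A hA hB hP hP0 htame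
  rw [pow_dvd_iff_le_count ((Ideal.prime_iff_isPrime hP0).2 hP) differentIdeal_ne_bot] at h2
  omega

variable (B) in
open Classical in
/-- the finite set of primes of `B` above `p`. -/
noncomputable def primesF (p : Ideal A) : Finset (Ideal B) :=
  (normalizedFactors (p.map (algebraMap A B))).toFinset

variable {A}

theorem mem_primesF_iff {p : Ideal A} (hpm : p.IsMaximal) (hp : p ≠ ⊥) {P : Ideal B} :
    P ∈ primesF A B p ↔ P ∈ p.primesOver B := by
  unfold primesF
  rw [Multiset.mem_toFinset, Ideal.mem_primesOver_iff_mem_normalizedFactors B hp]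

theorem coe_primesF {p : Ideal A} (hpm : p.IsMaximal) (hp : p ≠ ⊥) :
    (primesF A B p : Set (Ideal B)) = p.primesOver B := by
  ext P
  exact mem_primesF_iff hpm hp

theorem card_primesF {p : Ideal A} (hpm : p.IsMaximal) (hp : p ≠ ⊥) :
    (primesF A B p).card = (p.primesOver B).ncard := by
  rw [← coe_primesF hpm hp, Set.ncard_coe_finset]

theorem ne_bot_of_mem_primesF {p : Ideal A} (hpm : p.IsMaximal) (hp : p ≠ ⊥) {P : Ideal B}
    (hP : P ∈ primesF A B p) : P ≠ ⊥ :=
  Ideal.ne_bot_of_mem_primesOver hp ((mem_primesF_iff hpm hp).1 hP)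

include E F in
theorem sum_eidx (hA : ResK K A) (hB : ResK K B) {p : Ideal A} (hpm : p.IsMaximal)
    (hp : p ≠ ⊥) : ∑ P ∈ primesF A B p, eidx A P = finrank E F := by
  classical
  rw [← ideg_map_maximal K E F hA hB hpm hp]
  unfold ideg
  rw [← Multiset.toFinset_sum_count_eq]
  refine Finset.sum_congr rfl ?_
  intro P hP
  exact (count_eq_eidx ((mem_primesF_iff hpm hp).1 hP).2).symm

include E F in
theorem sum_eidx_sub_one (hA : ResK K A) (hB : ResK K B) {p : Ideal A} (hpm : p.IsMaximal)
    (hp : p ≠ ⊥) :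
    ∑ P ∈ primesF A B p, (eidx A P - 1) + (p.primesOver B).ncard = finrank E F := by
  rw [← sum_eidx K E F hA hB hpm hp, ← card_primesF hpm hp, Finset.card_eq_sum_ones,
    ← Finset.sum_add_distrib]
  refine Finset.sum_congr rfl ?_
  intro P hP
  have := one_le_eidx A ((mem_primesF_iff hpm hp).1 hP).1 (ne_bot_of_mem_primesF hpm hp hP)
  omega

theorem pairwiseDisjoint_primesF (S : Finset (Ideal A)) (hS : ∀ p ∈ S, p.IsMaximal ∧ p ≠ ⊥) :
    (S : Set (Ideal A)).PairwiseDisjoint (primesF A B) := by
  intro p hp p' hp' hne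
  rw [Function.onFun, Finset.disjoint_left]
  intro P hP hP'
  apply hne
  have h1 := ((mem_primesF_iff (hS p hp).1 (hS p hp).2).1 hP).2
  have h2 := ((mem_primesF_iff (hS p' hp').1 (hS p' hp').2).1 hP').2
  rw [h1.over, h2.over]

/-- **Lower bound for the degree of the different** (wild ramification allowed). -/
theorem sum_sub_one_le_ideg_differentIdeal
    [Algebra.IsSeparable (FractionRing A) (FractionRing B)]
    (S : Finset (Ideal A)) (hS : ∀ p ∈ S, p.IsMaximal ∧ p ≠ ⊥) :
    ∑ p ∈ S, ∑ P ∈ primesF A B p, (eidx A P - 1) ≤ ideg (differentIdeal A B) := by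
  classical
  rw [← Finset.sum_biUnion (pairwiseDisjoint_primesF S hS)]
  refine le_trans (Finset.sum_le_sum ?_) (sum_count_le_ideg (differentIdeal A B) _)
  intro P hP
  obtain ⟨p, hp, hP⟩ := Finset.mem_biUnion.1 hP
  exact eidx_sub_one_le_count A ((mem_primesF_iff (hS p hp).1 (hS p hp).2).1 hP).1
    (ne_bot_of_mem_primesF (hS p hp).1 (hS p hp).2 hP)

include E F in
/-- **Tame exactness.** -/
theorem sum_sub_one_eq_ideg_differentIdeal
    [Algebra.IsSeparable (FractionRing A) (FractionRing B)] (hA : ResK K A) (hB : ResK K B)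
    (S : Finset (Ideal A)) (hS : ∀ p ∈ S, p.IsMaximal ∧ p ≠ ⊥)
    (htame : ∀ P : Ideal B, P.IsPrime → P ≠ ⊥ → (eidx A P : K) ≠ 0)
    (hunr : ∀ p : Ideal A, p.IsMaximal → p ≠ ⊥ → p ∉ S → (p.primesOver B).ncard = finrank E F) :
    ∑ p ∈ S, ∑ P ∈ primesF A B p, (eidx A P - 1) = ideg (differentIdeal A B) := by
  classical
  rw [← Finset.sum_biUnion (pairwiseDisjoint_primesF S hS)]
  rw [← sum_count_eq_ideg (differentIdeal A B) (S.biUnion (primesF A B))]
  · refine Finset.sum_congr rfl ?_
    intro P hP
    obtain ⟨p, hp, hP⟩ := Finset.mem_biUnion.1 hP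
    have h1 := ((mem_primesF_iff (hS p hp).1 (hS p hp).2).1 hP).1
    have h2 := ne_bot_of_mem_primesF (hS p hp).1 (hS p hp).2 hP
    exact (count_differentIdeal_of_tame K A hA hB h1 h2 (htame P h1 h2)).symm
  · intro P hP
    have hPp : Prime P := prime_of_normalized_factor P hP
    have hP0 : P ≠ ⊥ := hPp.ne_zero
    have hPi : P.IsPrime := (Ideal.prime_iff_isPrime hP0).1 hPp
    have hc := count_differentIdeal_of_tame K A hA hB hPi hP0 (htame P hPi hP0)
    have hc1 : 1 ≤ Multiset.count P (normalizedFactors (differentIdeal A B)) :=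
      Multiset.one_le_count_iff_mem.2 hP
    have hpm := under_isMaximal A hPi hP0
    have hp := under_ne_bot A hP0
    have hmem : P ∈ primesF A B (P.under A) :=
      (mem_primesF_iff hpm hp).2 ⟨hPi, ⟨rfl⟩⟩
    rw [Finset.mem_biUnion]
    refine ⟨P.under A, ?_, hmem⟩
    by_contra hnS
    have h3 := sum_eidx_sub_one K E F hA hB hpm hp
    rw [hunr _ hpm hp hnS] at h3
    have h4 : ∑ P' ∈ primesF A B (P.under A), (eidx A P' - 1) = 0 := by omega
    have h5 := (Finset.sum_eq_zero_iff.1 h4) P hmem
    omega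

end ext

/-! ### user-facing forms (arbitrary fraction fields `E ⊆ F`, no `FractionRing` instances) -/

section final

variable (K : Type*) [Field K]
  {A : Type*} [CommRing A] [IsDedekindDomain A] [Algebra K A]
  {B : Type*} [CommRing B] [IsDedekindDomain B] [Algebra K B] [Algebra A B] [IsScalarTower K A B]
  [IsTorsionFree A B] [Module.Finite A B]
  (E F : Type*) [Field E] [Field F] [Algebra A E] [IsFractionRing A E] [Algebra B F]
  [IsFractionRing B F] [Algebra E F] [Algebra A F] [IsScalarTower A E F] [IsScalarTower A B F]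
  [Algebra.IsSeparable E F]

include E F in
theorem differentIdeal_ne_bot' : differentIdeal A B ≠ ⊥ := by
  haveI := isSeparable_fractionRing A B E F
  exact differentIdeal_ne_bot

include E F in
theorem finite_quotient_differentIdeal (hB : ResK K B) :
    Module.Finite K (B ⧸ differentIdeal A B) :=
  finite_quotient K hB (differentIdeal_ne_bot' E F)

include E F in
theorem finrank_quotient_differentIdeal (hB : ResK K B) :
    finrank K (B ⧸ differentIdeal A B) = ideg (differentIdeal A B) :=
  finrank_quotient K hB (differentIdeal_ne_bot' E F)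

include E F in
/-- (D3) **lower bound** for the degree of the different; wild ramification allowed. -/
theorem sum_le_finrank_quotient_differentIdeal (hA : ResK K A) (hB : ResK K B)
    (S : Finset (Ideal A)) (hS : ∀ p ∈ S, p.IsMaximal ∧ p ≠ ⊥) :
    ∑ p ∈ S, ((finrank E F : ℤ) - ((p.primesOver B).ncard : ℤ)) ≤
      (finrank K (B ⧸ differentIdeal A B) : ℤ) := by
  haveI := isSeparable_fractionRing A B E F
  rw [finrank_quotient_differentIdeal K E F hB]
  have h := sum_sub_one_le_ideg_differentIdeal (B := B) S hS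
  have h2 : ∑ p ∈ S, ((finrank E F : ℤ) - ((p.primesOver B).ncard : ℤ)) =
      ((∑ p ∈ S, ∑ P ∈ primesF A B p, (eidx A P - 1) : ℕ) : ℤ) := by
    rw [Nat.cast_sum]
    refine Finset.sum_congr rfl ?_
    intro p hp
    have := sum_eidx_sub_one K E F hA hB (hS p hp).1 (hS p hp).2
    omega
  rw [h2]
  exact_mod_cast h

include E F in
/-- (D4) **tame exactness**. -/
theorem sum_eq_finrank_quotient_differentIdeal (hA : ResK K A) (hB : ResK K B)
    (S : Finset (Ideal A)) (hS : ∀ p ∈ S, p.IsMaximal ∧ p ≠ ⊥)
    (htame : ∀ P : Ideal B, P.IsPrime → P ≠ ⊥ → (eidx A P : K) ≠ 0)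
    (hunr : ∀ p : Ideal A, p.IsMaximal → p ≠ ⊥ → p ∉ S → (p.primesOver B).ncard = finrank E F) :
    ∑ p ∈ S, ((finrank E F : ℤ) - ((p.primesOver B).ncard : ℤ)) =
      (finrank K (B ⧸ differentIdeal A B) : ℤ) := by
  haveI := isSeparable_fractionRing A B E F
  rw [finrank_quotient_differentIdeal K E F hB]
  have h := sum_sub_one_eq_ideg_differentIdeal K E F hA hB S hS htame hunr
  have h2 : ∑ p ∈ S, ((finrank E F : ℤ) - ((p.primesOver B).ncard : ℤ)) =
      ((∑ p ∈ S, ∑ P ∈ primesF A B p, (eidx A P - 1) : ℕ) : ℤ) := by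
    rw [Nat.cast_sum]
    refine Finset.sum_congr rfl ?_
    intro p hp
    have := sum_eidx_sub_one K E F hA hB (hS p hp).1 (hS p hp).2
    omega
  rw [h2, h]

/-- in characteristic zero everything is tame. -/
theorem tame_of_charZero [CharZero K] (P : Ideal B) (hP : P.IsPrime) (hP0 : P ≠ ⊥) :
    (eidx A P : K) ≠ 0 := by
  have := one_le_eidx A hP hP0
  exact Nat.cast_ne_zero.2 (by omega)

end final

section tower

variable (K : Type*) [Field K]
  (A : Type*) [CommRing A] [IsDedekindDomain A] [Algebra K A]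
  (B : Type*) [CommRing B] [IsDedekindDomain B] [Algebra K B] [Algebra A B] [IsScalarTower K A B]
  [IsTorsionFree A B] [Module.Finite A B]
  (C : Type*) [CommRing C] [IsDedekindDomain C] [Algebra K C] [Algebra A C] [Algebra B C]
  [IsScalarTower K B C] [IsScalarTower A B C]
  [IsTorsionFree A C] [Module.Finite A C] [IsTorsionFree B C] [Module.Finite B C]
  (E F G : Type*) [Field E] [Field F] [Field G] [Algebra A E] [IsFractionRing A E] [Algebra B F]
  [IsFractionRing B F] [Algebra C G] [IsFractionRing C G]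
  [Algebra E F] [Algebra A F] [IsScalarTower A E F] [IsScalarTower A B F]
  [Algebra E G] [Algebra A G] [IsScalarTower A E G] [IsScalarTower A C G]
  [Algebra F G] [Algebra B G] [IsScalarTower B F G] [IsScalarTower B C G]
  [Algebra.IsSeparable E G]

include E F G in
/-- (D5) **transitivity of the degree of the different**. -/
theorem finrank_quotient_differentIdeal_tower (hB : ResK K B) (hC : ResK K C) :
    finrank K (C ⧸ differentIdeal A C) =
      finrank K (C ⧸ differentIdeal B C) + finrank F G * finrank K (B ⧸ differentIdeal A B) := by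
  haveI := isSeparable_fractionRing A C E G
  haveI : Algebra.IsSeparable (FractionRing B) (FractionRing C) :=
    Algebra.isSeparable_tower_top_of_isSeparable (FractionRing A) _ _
  haveI : Algebra.IsSeparable (FractionRing A) (FractionRing B) :=
    Algebra.isSeparable_tower_bot_of_isSeparable _ _ (FractionRing C)
  rw [finrank_quotient K hC differentIdeal_ne_bot, finrank_quotient K hC differentIdeal_ne_bot,
    finrank_quotient K hB differentIdeal_ne_bot,
    differentIdeal_eq_differentIdeal_mul_differentIdeal A B C,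
    ideg_mul differentIdeal_ne_bot (map_ne_bot C differentIdeal_ne_bot),
    ideg_map K F G hB hC differentIdeal_ne_bot]

end tower

section resK

variable (K : Type*) [Field K] [IsAlgClosed K]

theorem ResK.of_finiteType (B : Type*) [CommRing B] [Algebra K B] [Algebra.FiniteType K B] :
    ResK K B := by
  intro P hP
  letI := Ideal.Quotient.field P
  haveI : Module.Finite K (B ⧸ P) := finite_of_finite_type_of_isJacobsonRing K (B ⧸ P)
  exact (IsAlgClosed.algebraMap_bijective_of_isIntegral (k := K) (K := B ⧸ P)).2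

theorem ResK.of_integral {A : Type*} [CommRing A] [Algebra K A] (hA : ResK K A)
    (B : Type*) [CommRing B] [Algebra K B] [Algebra A B] [IsScalarTower K A B]
    [Algebra.IsIntegral A B] : ResK K B := by
  intro P hP
  haveI hpm : (P.under A).IsMaximal := Ideal.isMaximal_comap_of_isIntegral_of_isMaximal P
  haveI : Algebra.IsIntegral K (A ⧸ P.under A) :=
    Algebra.isIntegral_of_surjective (hA _ hpm)
  haveI : Algebra.IsIntegral (A ⧸ P.under A) (B ⧸ P) := inferInstance
  haveI : Algebra.IsIntegral K (B ⧸ P) := Algebra.IsIntegral.trans (A ⧸ P.under A)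
  letI := Ideal.Quotient.field P
  exact (IsAlgClosed.algebraMap_bijective_of_isIntegral (k := K) (K := B ⧸ P)).2

end resK

end Fermat.Agent.RED.DRH
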