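import Fermat.Agent.RED.DRH.Diff
import Fermat.Agent.S24.FF.Dedekind

/-!
# Charts: Dedekind domains inside a function field versus places

Generic bridge between primes of a Dedekind `K`-algebra `B` with fraction field `F` and the
places of `F / K` whose valuation ring contains `B`.
-/

set_option autoImplicit false
set_option linter.unusedSectionVars false
set_option linter.style.haveILetI false

open AlgebraicCurve IsDedekindDomain Module
open Fermat.Agent.S24

namespace Fermat.Agent.RED.DRH

variable {K F : Type*} [Field K] [Field F] [Algebra K F]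

/-- `v` lies in the chart of the ring `B`: the valuation ring of `v` contains `B`. -/
def InChart (B : Type*) [CommRing B] [Algebra B F] (v : Place K F) : Prop :=
  ∀ b : B, algebraMap B F b ∈ v.toValuationSubring

section chart

variable (B : Type*) [CommRing B] [IsDedekindDomain B] [Algebra B F] [IsFractionRing B F]
  [Algebra K B] [IsScalarTower K B F]

theorem inChart_ofHeightOneSpectrum (w : HeightOneSpectrum B) :
    InChart B (Place.ofHeightOneSpectrum (K := K) (F := F) w) :=
  fun b => algebraMap_mem_ofHeightOneSpectrum w b

variable {B} in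
theorem InChart.exists_eq {v : Place K F} (hv : InChart B v) :
    ∃ w : HeightOneSpectrum B, v = Place.ofHeightOneSpectrum w :=
  exists_eq_ofHeightOneSpectrum v hv

/-- an element of `F` lies in `B` iff it is regular at all places of the chart. -/
theorem mem_range_iff_forall_inChart (f : F) :
    f ∈ Set.range (algebraMap B F) ↔
      ∀ v : Place K F, InChart B v → f ∈ v.toValuationSubring := by
  constructor
  · rintro ⟨b, rfl⟩ v hv
    exact hv b
  · intro h
    obtain ⟨b, hb⟩ := HeightOneSpectrum.mem_integers_of_valuation_le_one F f (fun w => by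
      have := h _ (inChart_ofHeightOneSpectrum (K := K) (F := F) B w)
      rwa [Place.ofHeightOneSpectrum_toValuationSubring, Valuation.mem_valuationSubring_iff]
        at this)
    exact ⟨b, hb⟩

/-- the chart of an integral extension. -/
theorem inChart_iff_of_isIntegral (A : Type*) [CommRing A] [Algebra A B] [Algebra A F]
    [IsScalarTower A B F] [Algebra.IsIntegral A B] (v : Place K F) :
    InChart B v ↔ InChart A v := by
  constructor
  · intro h a
    rw [IsScalarTower.algebraMap_apply A B F]
    exact h _
  · intro h b
    obtain ⟨p, hp, hp0⟩ := Algebra.IsIntegral.isIntegral (R := A) b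
    let φ : A →+* v.toValuationSubring :=
      (algebraMap A F).codRestrict v.toValuationSubring.toSubring h
    have h1 : IsIntegral v.toValuationSubring (algebraMap B F b) := by
      refine ⟨p.map φ, hp.map φ, ?_⟩
      rw [Polynomial.eval₂_map]
      have h2 : (algebraMap v.toValuationSubring F).comp φ = algebraMap A F := rfl
      rw [h2, IsScalarTower.algebraMap_eq A B F, ← Polynomial.hom_eval₂, hp0, map_zero]
    obtain ⟨x, hx⟩ := IsIntegrallyClosed.isIntegral_iff.1 h1
    rw [← hx]
    exact x.2

variable {A : Type*} [CommRing A] [IsDomain A] [Algebra A B] [Algebra A F] [IsScalarTower A B F]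
  [IsTorsionFree A B]

/-- primes above a principal maximal ideal versus zeros in the chart. -/
theorem ncard_primesOver_span {π : A} (hπ0 : π ≠ 0) (hmax : (Ideal.span {π}).IsMaximal) :
    ((Ideal.span {π}).primesOver B).ncard =
      Nat.card {v : Place K F // InChart B v ∧ 0 < v.ord (algebraMap A F π)} := by
  have hπB : algebraMap A B π ≠ 0 := by
    intro h
    exact hπ0 ((FaithfulSMul.algebraMap_injective A B) (by rw [h, map_zero]))
  set Z : Set (HeightOneSpectrum B) := {w | algebraMap A B π ∈ w.asIdeal} with hZ
  have h1 : (Ideal.span {π}).primesOver B = HeightOneSpectrum.asIdeal '' Z := by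
    ext P
    constructor
    · rintro ⟨hP, hover⟩
      have hP0 : P ≠ ⊥ := Ideal.ne_bot_of_mem_primesOver
        (fun h => hπ0 (Ideal.span_singleton_eq_bot.1 h)) ⟨hP, hover⟩
      refine ⟨⟨P, hP, hP0⟩, ?_, rfl⟩
      have : π ∈ P.under A := by
        rw [← hover.over]
        exact Ideal.mem_span_singleton_self π
      exact this
    · rintro ⟨w, hw, rfl⟩
      refine ⟨w.isPrime, ⟨?_⟩⟩
      refine hmax.eq_of_le ?_ ?_
      · intro h
        have h1 : (1 : A) ∈ w.asIdeal.under A := by rw [h]; trivial
        rw [Ideal.mem_under, map_one] at h1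
        exact w.isPrime.ne_top ((Ideal.eq_top_iff_one _).2 h1)
      · rw [Ideal.span_singleton_le_iff_mem]
        exact hw
  have h2 : {v : Place K F | InChart B v ∧ 0 < v.ord (algebraMap A F π)} =
      Place.ofHeightOneSpectrum '' Z := by
    ext v
    constructor
    · rintro ⟨hv, hpos⟩
      obtain ⟨w, rfl⟩ := hv.exists_eq
      refine ⟨w, ?_, rfl⟩
      rw [IsScalarTower.algebraMap_apply A B F] at hpos
      exact (pos_ord_iff_mem w hπB).1 hpos
    · rintro ⟨w, hw, rfl⟩
      refine ⟨inChart_ofHeightOneSpectrum B w, ?_⟩
      rw [IsScalarTower.algebraMap_apply A B F]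
      exact (pos_ord_iff_mem w hπB).2 hw
  rw [h1, Set.ncard_image_of_injective _ (fun a b h => HeightOneSpectrum.ext h)]
  change _ = Nat.card ↥{v : Place K F | InChart B v ∧ 0 < v.ord (algebraMap A F π)}
  rw [Nat.card_coe_set_eq, h2, Set.ncard_image_of_injective _ ofHeightOneSpectrum_injective]

end chart

end Fermat.Agent.RED.DRH
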