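import Fermat.Agent.RED.DRH.Twist

/-!
# DRH3: discriminant form of Riemann-Hurwitz for a finite separable extension of `K(X)`
-/

set_option autoImplicit false
set_option linter.unusedSectionVars false

namespace Fermat.Agent.RED.DRH

open Module Submodule Polynomial

section General

variable (R Q F : Type*) [CommRing R] [IsDomain R] [IsPrincipalIdealRing R] [Field Q] [Field F]
  [Algebra R Q] [IsFractionRing R Q] [Algebra Q F] [Algebra R F] [IsScalarTower R Q F]
  [FiniteDimensional Q F] [Algebra.IsSeparable Q F]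

/-- the integral closure, as a lattice. -/
noncomputable def icl : Submodule R F := Subalgebra.toSubmodule (integralClosure R F)

variable {R F} in
theorem mem_icl {f : F} : f ∈ icl R F ↔ IsIntegral R f := Iff.rfl

theorem isLattice_icl : IsLattice Q (icl R F) where
  fg := by
    have : Module.Finite R (integralClosure R F) := IsIntegralClosure.finite R Q F _
    exact Module.Finite.iff_fg.1 this
  span_eq_top := by
    obtain ⟨s, b, hb⟩ := FiniteDimensional.exists_is_basis_integral R Q F
    rw [eq_top_iff, ← b.span_eq]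
    apply Submodule.span_mono
    rintro _ ⟨i, rfl⟩
    exact hb i

theorem icl_le_dual : icl R F ≤ (Algebra.traceForm Q F).dualSubmodule (icl R F) := by
  intro x hx y hy
  rw [Algebra.traceForm_apply, Submodule.mem_one]
  have h : IsIntegral R (Algebra.trace Q F (x * y)) :=
    Algebra.isIntegral_trace (IsIntegral.mul hx hy)
  exact IsIntegrallyClosed.isIntegral_iff.1 h

end General

section FF

variable (K F : Type*) [Field K] [Field F] [Algebra (RatFunc K) F] [Algebra K[X] F] [Algebra K F]
  [IsScalarTower K[X] (RatFunc K) F] [IsScalarTower K K[X] F] [IsScalarTower K (RatFunc K) F]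
  [FiniteDimensional (RatFunc K) F] [Algebra.IsSeparable (RatFunc K) F]

instance isLattice_icl0 : IsLattice (RatFunc K) (icl K[X] F) := isLattice_icl _ _ _

instance isLattice_icl1 : IsLattice (RatFunc K) (icl (Rinf K) F) := isLattice_icl _ _ _

/-- degree of the finite part of the discriminant. -/
noncomputable def disc0 : ℕ∞ :=
  rl ((icl K[X] F).restrictScalars K)
    (((Algebra.traceForm (RatFunc K) F).dualSubmodule (icl K[X] F)).restrictScalars K)

/-- degree of the infinite part of the discriminant. -/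
noncomputable def disc1 : ℕ∞ :=
  rl ((icl (Rinf K) F).restrictScalars K)
    (((Algebra.traceForm (RatFunc K) F).dualSubmodule (icl (Rinf K) F)).restrictScalars K)

/-- the space `L(m (X)_∞)`. -/
noncomputable def Lm (m : ℕ) : Submodule K F :=
  (icl K[X] F).restrictScalars K ⊓
    (tw ((RatFunc.X : RatFunc K) ^ (-(m : ℤ))) (icl (Rinf K) F)).restrictScalars K

variable {K F} in
theorem mem_Lm {m : ℕ} {f : F} : f ∈ Lm K F m ↔
    IsIntegral K[X] f ∧ IsIntegral (Rinf K) ((RatFunc.X : RatFunc K) ^ (-(m : ℤ)) • f) := Iff.rfl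

theorem disc0_ne_top : disc0 K F ≠ ⊤ :=
  ((isP1Datum K).two_chi (Algebra.traceForm (RatFunc K) F) (traceForm_nondegenerate _ _)
    (icl K[X] F) (icl (Rinf K) F) (icl_le_dual _ _ _) (icl_le_dual _ _ _)).2.2.1

theorem disc1_ne_top : disc1 K F ≠ ⊤ :=
  ((isP1Datum K).two_chi (Algebra.traceForm (RatFunc K) F) (traceForm_nondegenerate _ _)
    (icl K[X] F) (icl (Rinf K) F) (icl_le_dual _ _ _) (icl_le_dual _ _ _)).2.2.2.1

/-- **Discriminant Riemann-Hurwitz**: for `m ≫ 0`,
`2 ℓ(m (X)_∞) + deg Disc = 2 (m + 1) n`. -/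
theorem exists_two_length_Lm : ∃ m₀ : ℕ, ∀ m : ℕ, m₀ ≤ m →
    2 * Module.length K (Lm K F m) + disc0 K F + disc1 K F =
      2 * ((m + 1) * Module.finrank (RatFunc K) F) := by
  obtain ⟨f1, f2, f3, f4, key⟩ := (isP1Datum K).two_chi (Algebra.traceForm (RatFunc K) F)
    (traceForm_nondegenerate _ _) (icl K[X] F) (icl (Rinf K) F) (icl_le_dual _ _ _)
    (icl_le_dual _ _ _)
  obtain ⟨m₀, hm₀⟩ := exists_twist (icl K[X] F) (icl (Rinf K) F)
  refine ⟨m₀, fun m hm => ?_⟩
  obtain ⟨-, h2⟩ := hm₀ m hm
  have e : Module.length K (Lm K F m) = h0 ((icl K[X] F).restrictScalars K)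
    ((tw ((RatFunc.X : RatFunc K) ^ (-(m : ℤ))) (icl (Rinf K) F)).restrictScalars K) := rfl
  rw [e]
  unfold disc0 disc1
  generalize h0 ((icl K[X] F).restrictScalars K)
    ((tw ((RatFunc.X : RatFunc K) ^ (-(m : ℤ))) (icl (Rinf K) F)).restrictScalars K) = z at *
  generalize h0 ((icl K[X] F).restrictScalars K) ((icl (Rinf K) F).restrictScalars K) = x at *
  generalize h1 ((icl K[X] F).restrictScalars K) ((icl (Rinf K) F).restrictScalars K) = y at *
  generalize rl ((icl K[X] F).restrictScalars K)
    (((Algebra.traceForm (RatFunc K) F).dualSubmodule (icl K[X] F)).restrictScalars K) = d0 at *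
  generalize rl ((icl (Rinf K) F).restrictScalars K)
    (((Algebra.traceForm (RatFunc K) F).dualSubmodule (icl (Rinf K) F)).restrictScalars K) = d1
    at *
  generalize Module.finrank (RatFunc K) F = n at *
  lift x to ℕ using f1
  lift y to ℕ using f2
  lift d0 to ℕ using f3
  lift d1 to ℕ using f4
  have hz : z ≠ ⊤ := by
    rintro rfl
    simp at h2
    exact absurd h2.symm (by exact_mod_cast ENat.natCast_ne_top (x + m * n))
  lift z to ℕ using hz
  norm_cast at *
  have : (m + 1) * n = m * n + n := by ring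
  omega

end FF

end Fermat.Agent.RED.DRH
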