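import Fermat.Agent.RED.DRH.Diff
import Fermat.Agent.RED.DRH.FF

/-!
# (D2): the discriminant degrees `disc0`, `disc1` are the degrees of the different ideals
-/

set_option autoImplicit false
set_option linter.unusedSectionVars false
set_option linter.style.haveILetI false

namespace Fermat.Agent.RED.DRH

open Module nonZeroDivisors Polynomial

section General

variable {K V M : Type*} [Field K] [AddCommGroup V] [Module K V] [AddCommGroup M] [Module K M]

theorem rl_map_of_injective (φ : M →ₗ[K] V) (hφ : Function.Injective φ) (X Y : Submodule K M) :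
    rl (X.map φ) (Y.map φ) = rl X Y := by
  unfold rl
  refine (LinearEquiv.length_eq ?_).symm
  refine Submodule.Quotient.equiv (X.submoduleOf Y) ((X.map φ).submoduleOf (Y.map φ))
    (Submodule.equivMapOfInjective φ hφ Y) ?_
  ext ⟨y, hy⟩
  constructor
  · rintro ⟨m, hm, hmy⟩
    refine ⟨m, hm, ?_⟩
    exact congrArg Subtype.val hmy
  · rintro ⟨m, hm, hmy⟩
    obtain ⟨b, hb, hby⟩ := hy
    have : m = b := hφ (hmy.trans hby.symm)
    subst this
    exact ⟨⟨m, hb⟩, hm, Subtype.ext hmy⟩

end General

section Frac

variable (K : Type*) [Field K] {B F : Type*} [CommRing B] [IsDedekindDomain B] [Field F]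
  [Algebra B F] [IsFractionRing B F] [Algebra K F] [Algebra K B] [IsScalarTower K B F]

theorem rl_coeIdeal_one (𝔞 : Ideal B) :
    rl (((𝔞 : FractionalIdeal B⁰ F) : Submodule B F).restrictScalars K)
      (((1 : FractionalIdeal B⁰ F) : Submodule B F).restrictScalars K) =
      Module.length K (B ⧸ 𝔞) := by
  have h := rl_map_of_injective ((Algebra.linearMap B F).restrictScalars K)
    (IsFractionRing.injective B F) (𝔞.restrictScalars K) ⊤
  have h1 : (⊤ : Submodule K B).map ((Algebra.linearMap B F).restrictScalars K)
      = ((1 : FractionalIdeal B⁰ F) : Submodule B F).restrictScalars K := by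
    ext z
    rw [Submodule.restrictScalars_mem, FractionalIdeal.mem_coe, FractionalIdeal.mem_one_iff]
    simp
  have h2 : (𝔞.restrictScalars K).map ((Algebra.linearMap B F).restrictScalars K)
      = ((𝔞 : FractionalIdeal B⁰ F) : Submodule B F).restrictScalars K := by
    ext z
    rw [Submodule.restrictScalars_mem, FractionalIdeal.mem_coe, FractionalIdeal.mem_coeIdeal]
    rfl
  rw [h1, h2, rl_top] at h
  rw [h]
  exact (Submodule.Quotient.restrictScalarsEquiv K 𝔞).length_eq

theorem rl_fractionalIdeal_mul {I : FractionalIdeal B⁰ F} (hI : I ≠ 0) {𝔞 : Ideal B}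
    (h𝔞 : 𝔞 ≠ ⊥) :
    rl (((I * (𝔞 : FractionalIdeal B⁰ F) : FractionalIdeal B⁰ F) : Submodule B F).restrictScalars K)
      ((I : Submodule B F).restrictScalars K) = Module.length K (B ⧸ 𝔞) := by
  have h𝔞' : (𝔞 : FractionalIdeal B⁰ F) ≠ 0 := by
    rwa [Ne, FractionalIdeal.coeIdeal_eq_zero]
  have hle : I * (𝔞 : FractionalIdeal B⁰ F) ≤ I := by
    calc I * (𝔞 : FractionalIdeal B⁰ F) ≤ I * 1 :=
          mul_le_mul_right FractionalIdeal.coeIdeal_le_one I
      _ = I := mul_one I
  have e := FractionalIdeal.quotientEquiv I (I * (𝔞 : FractionalIdeal B⁰ F)) 1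
    (𝔞 : FractionalIdeal B⁰ F) (by rw [one_mul]) hle FractionalIdeal.coeIdeal_le_one h𝔞' hI
  rw [← rl_coeIdeal_one (K := K) (F := F), rl_restrictScalars, rl_restrictScalars]
  exact (e.restrictScalars K).length_eq

end Frac

section Different

variable (K : Type*) [Field K] (R Q F : Type*) [CommRing R] [IsDedekindDomain R] [Field Q] [Field F]
  [Algebra R Q] [IsFractionRing R Q] [Algebra Q F] [Algebra R F] [IsScalarTower R Q F]
  [FiniteDimensional Q F] [Algebra.IsSeparable Q F]
  [Algebra K F]
  (B : Type*) [CommRing B] [IsDedekindDomain B] [Algebra B F] [IsFractionRing B F] [Algebra R B]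
  [IsScalarTower R B F] [IsIntegralClosure B R F] [IsTorsionFree R B] [Algebra K B]
  [IsScalarTower K B F]

theorem rl_one_dual :
    rl (((1 : FractionalIdeal B⁰ F) : Submodule B F).restrictScalars K)
      (((FractionalIdeal.dual R Q (1 : FractionalIdeal B⁰ F) : FractionalIdeal B⁰ F) :
        Submodule B F).restrictScalars K) = Module.length K (B ⧸ differentIdeal R B) := by
  have hD : FractionalIdeal.dual R Q (1 : FractionalIdeal B⁰ F) ≠ 0 :=
    FractionalIdeal.dual_ne_zero R Q one_ne_zero
  have hne : differentIdeal R B ≠ ⊥ := by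
    intro hbot
    have h1 := coeIdeal_differentIdeal R Q F B
    rw [hbot, FractionalIdeal.coeIdeal_bot] at h1
    exact inv_ne_zero hD h1.symm
  have h := rl_fractionalIdeal_mul K hD hne
  rwa [coeIdeal_differentIdeal R Q F B, mul_inv_cancel₀ hD] at h

variable [Algebra K R] [IsScalarTower K R F]

theorem icl_restrictScalars_eq :
    (icl R F).restrictScalars K =
      ((1 : FractionalIdeal B⁰ F) : Submodule B F).restrictScalars K := by
  ext z
  rw [Submodule.restrictScalars_mem, Submodule.restrictScalars_mem,
    FractionalIdeal.mem_coe, FractionalIdeal.mem_one_iff]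
  exact (IsIntegralClosure.isIntegral_iff (A := B))

theorem dual_icl_restrictScalars_eq :
    ((Algebra.traceForm Q F).dualSubmodule (icl R F)).restrictScalars K =
      ((FractionalIdeal.dual R Q (1 : FractionalIdeal B⁰ F) : FractionalIdeal B⁰ F) :
        Submodule B F).restrictScalars K := by
  ext z
  rw [Submodule.restrictScalars_mem, Submodule.restrictScalars_mem,
    FractionalIdeal.mem_coe,
    FractionalIdeal.mem_dual (one_ne_zero : (1 : FractionalIdeal B⁰ F) ≠ 0),
    LinearMap.BilinForm.mem_dualSubmodule]
  constructor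
  · intro h a ha
    obtain ⟨b, rfl⟩ := (FractionalIdeal.mem_one_iff _).1 ha
    have := h (algebraMap B F b) ((IsIntegralClosure.isIntegral_iff (A := B)).2 ⟨b, rfl⟩)
    rw [Submodule.mem_one] at this
    exact this
  · intro h y hy
    obtain ⟨b, rfl⟩ := (IsIntegralClosure.isIntegral_iff (A := B)).1 hy
    have := h (algebraMap B F b) ((FractionalIdeal.mem_one_iff _).2 ⟨b, rfl⟩)
    rw [Submodule.mem_one]
    exact this

/-- (D2) the index of the integral closure in its trace dual is the degree of the different. -/
theorem rl_icl_dual :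
    rl ((icl R F).restrictScalars K)
      (((Algebra.traceForm Q F).dualSubmodule (icl R F)).restrictScalars K) =
      Module.length K (B ⧸ differentIdeal R B) := by
  rw [icl_restrictScalars_eq K R F B, dual_icl_restrictScalars_eq K R Q F B, rl_one_dual]

theorem rl_icl_dual' [IsScalarTower K R B] (hB : ResK K B) :
    rl ((icl R F).restrictScalars K)
      (((Algebra.traceForm Q F).dualSubmodule (icl R F)).restrictScalars K) =
      (finrank K (B ⧸ differentIdeal R B) : ℕ∞) := by
  haveI : Module.Finite R B := IsIntegralClosure.finite R Q F B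
  haveI := finite_quotient_differentIdeal (A := R) K Q F hB
  rw [rl_icl_dual K R Q F B, Module.length_eq_finrank]

end Different

section FF

variable (K F : Type*) [Field K] [Field F] [Algebra (RatFunc K) F] [Algebra K[X] F] [Algebra K F]
  [IsScalarTower K[X] (RatFunc K) F] [IsScalarTower K K[X] F] [IsScalarTower K (RatFunc K) F]
  [FiniteDimensional (RatFunc K) F] [Algebra.IsSeparable (RatFunc K) F]

theorem disc0_eq (B : Type*) [CommRing B] [IsDedekindDomain B] [Algebra B F] [IsFractionRing B F]
    [Algebra K[X] B] [IsScalarTower K[X] B F] [IsIntegralClosure B K[X] F] [IsTorsionFree K[X] B]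
    [Algebra K B] [IsScalarTower K B F] [IsScalarTower K K[X] B] (hB : ResK K B) :
    disc0 K F = (finrank K (B ⧸ differentIdeal K[X] B) : ℕ∞) :=
  rl_icl_dual' K K[X] (RatFunc K) F B hB

theorem disc1_eq (B : Type*) [CommRing B] [IsDedekindDomain B] [Algebra B F] [IsFractionRing B F]
    [Algebra (Rinf K) B] [IsScalarTower (Rinf K) B F] [IsIntegralClosure B (Rinf K) F]
    [IsTorsionFree (Rinf K) B]
    [Algebra K B] [IsScalarTower K B F] [IsScalarTower K (Rinf K) B] (hB : ResK K B) :
    disc1 K F = (finrank K (B ⧸ differentIdeal (Rinf K) B) : ℕ∞) :=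
  rl_icl_dual' K (Rinf K) (RatFunc K) F B hB

end FF

end Fermat.Agent.RED.DRH
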