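import Fermat.Agent.RED.DRH.Lattice

/-!
# DRH2: the `ℙ¹`-datum `(K[X], 𝒪_∞)` inside `K(X)`
-/

set_option autoImplicit false
set_option linter.unusedSectionVars false

namespace Fermat.Agent.RED.DRH

open Module Submodule Polynomial

variable (K : Type*) [Field K]

/-- rational functions of degree `≤ -j` (and `0`), as a `K`-subspace. -/
noncomputable def Mdeg (j : ℤ) : Submodule K (RatFunc K) where
  carrier := {q | q = 0 ∨ q.intDegree ≤ -j}
  zero_mem' := Or.inl rfl
  add_mem' := by
    rintro a b (rfl | ha) (rfl | hb)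
    · left; simp
    · right; simpa using hb
    · right; simpa using ha
    · by_cases hab : a + b = 0
      · exact Or.inl hab
      by_cases hb0 : b = 0
      · subst hb0; right; simpa using ha
      right
      exact (RatFunc.intDegree_add_le hb0 hab).trans (max_le ha hb)
  smul_mem' := by
    rintro c a (rfl | ha)
    · left; simp
    · by_cases hc : c = 0
      · left; simp [hc]
      by_cases ha0 : a = 0
      · left; simp [ha0]
      right
      rw [Algebra.smul_def, RatFunc.algebraMap_eq_C, RatFunc.intDegree_mul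
        (by simpa using hc) ha0, RatFunc.intDegree_C, zero_add]
      exact ha

variable {K}

theorem mem_Mdeg {j : ℤ} {q : RatFunc K} : q ∈ Mdeg K j ↔ q = 0 ∨ q.intDegree ≤ -j := Iff.rfl

theorem mem_Mdeg_of_ne {j : ℤ} {q : RatFunc K} (hq : q ≠ 0) :
    q ∈ Mdeg K j ↔ q.intDegree ≤ -j := by
  rw [mem_Mdeg, or_iff_right hq]

theorem mul_mem_Mdeg {i j : ℤ} {a b : RatFunc K} (ha : a ∈ Mdeg K i) (hb : b ∈ Mdeg K j) :
    a * b ∈ Mdeg K (i + j) := by
  by_cases ha0 : a = 0
  · left; simp [ha0]
  by_cases hb0 : b = 0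
  · left; simp [hb0]
  rw [mem_Mdeg_of_ne ha0] at ha
  rw [mem_Mdeg_of_ne hb0] at hb
  rw [mem_Mdeg_of_ne (mul_ne_zero ha0 hb0), RatFunc.intDegree_mul ha0 hb0]
  omega

variable (K) in
/-- the local ring at infinity of `K(X)`. -/
noncomputable def Rinf : Subalgebra K (RatFunc K) where
  carrier := {q | q.intDegree ≤ 0}
  zero_mem' := by simp
  one_mem' := by simp
  add_mem' := by
    intro a b ha hb
    have ha' : a ∈ Mdeg K 0 := Or.inr (by simpa using ha)
    have hb' : b ∈ Mdeg K 0 := Or.inr (by simpa using hb)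
    rcases (Mdeg K 0).add_mem ha' hb' with h | h
    · simp [h]
    · simpa using h
  mul_mem' := by
    intro a b ha hb
    have ha' : a ∈ Mdeg K 0 := Or.inr (by simpa using ha)
    have hb' : b ∈ Mdeg K 0 := Or.inr (by simpa using hb)
    rcases mul_mem_Mdeg ha' hb' with h | h
    · simp [h]
    · simpa using h
  algebraMap_mem' := by
    intro c
    simp [RatFunc.algebraMap_eq_C]

theorem mem_Rinf {q : RatFunc K} : q ∈ Rinf K ↔ q.intDegree ≤ 0 := Iff.rfl

theorem mem_Rinf_iff_Mdeg {q : RatFunc K} : q ∈ Rinf K ↔ q ∈ Mdeg K 0 := by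
  rw [mem_Rinf, mem_Mdeg]
  constructor
  · intro h; right; simpa using h
  · rintro (rfl | h)
    · simp
    · simpa using h

instance : IsFractionRing (Rinf K) (RatFunc K) := by
  refine IsFractionRing.of_field _ _ fun z => ?_
  by_cases hz : z.intDegree ≤ 0
  · exact ⟨⟨z, hz⟩, 1, by simp⟩
  · refine ⟨1, ⟨z⁻¹, ?_⟩, by simp⟩
    rw [mem_Rinf, RatFunc.intDegree_inv]
    omega

instance : IsPrincipalIdealRing (Rinf K) := by
  classical
  refine ⟨fun I => ?_⟩
  by_cases hI : I = ⊥
  · rw [hI]; exact bot_isPrincipal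
  obtain ⟨x, hxI, hx0⟩ := Submodule.exists_mem_ne_zero_of_ne_bot hI
  -- minimal order
  let P : ℕ → Prop := fun m => ∃ a ∈ I, a ≠ 0 ∧ (a : RatFunc K).intDegree = -(m : ℤ)
  have hP : ∃ m, P m := by
    refine ⟨(-(x : RatFunc K).intDegree).toNat, x, hxI, hx0, ?_⟩
    have := x.2
    rw [mem_Rinf] at this
    omega
  obtain ⟨a, haI, ha0, ha⟩ := Nat.find_spec hP
  refine ⟨a, le_antisymm ?_ ?_⟩
  · intro b hb
    by_cases hb0 : b = 0
    · rw [hb0]; exact Submodule.zero_mem _
    have hb1 := b.2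
    rw [mem_Rinf] at hb1
    have hmin : Nat.find hP ≤ (-(b : RatFunc K).intDegree).toNat :=
      Nat.find_min' hP ⟨b, hb, hb0, by omega⟩
    have ha0' : (a : RatFunc K) ≠ 0 := by simpa using ha0
    have hb0' : (b : RatFunc K) ≠ 0 := by simpa using hb0
    have hq : (b : RatFunc K) / a ∈ Rinf K := by
      rw [mem_Rinf, RatFunc.intDegree_div hb0' ha0']
      omega
    rw [Submodule.mem_span_singleton]
    refine ⟨⟨_, hq⟩, ?_⟩
    apply Subtype.ext
    simp [div_mul_cancel₀ _ ha0']
  · rw [Submodule.span_le]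
    simpa using haI

/-- polynomial plus strictly proper part. -/
theorem exists_poly_add (q : RatFunc K) :
    ∃ (p : K[X]) (s : RatFunc K), s ∈ Mdeg K 1 ∧ q = algebraMap K[X] (RatFunc K) p + s := by
  have hd : q.denom ≠ 0 := q.denom_ne_zero
  have hd' : algebraMap K[X] (RatFunc K) q.denom ≠ 0 := by simpa using hd
  refine ⟨q.num / q.denom, algebraMap _ _ (q.num % q.denom) / algebraMap _ _ q.denom, ?_, ?_⟩
  · by_cases h0 : q.num % q.denom = 0
    · left; simp [h0]
    · have h0' : algebraMap K[X] (RatFunc K) (q.num % q.denom) ≠ 0 := by simpa using h0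
      rw [mem_Mdeg_of_ne (div_ne_zero h0' hd'), RatFunc.intDegree_div h0' hd',
        RatFunc.intDegree_polynomial, RatFunc.intDegree_polynomial]
      have := Polynomial.natDegree_lt_natDegree h0 (Polynomial.degree_mod_lt q.num hd)
      omega
  · conv_lhs => rw [← RatFunc.num_div_denom q, ← EuclideanDomain.div_add_mod q.num q.denom]
    rw [map_add, map_mul]
    field_simp

theorem Mdeg_anti {i j : ℤ} (h : i ≤ j) : Mdeg K j ≤ Mdeg K i := by
  rintro q (rfl | hq)
  · exact Or.inl rfl
  · right; omega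

theorem X_zpow_mem_Mdeg (c : ℤ) : (RatFunc.X : RatFunc K) ^ c ∈ Mdeg K (-c) := by
  right
  have h : ∀ n : ℕ, ((RatFunc.X : RatFunc K) ^ n).intDegree = n := by
    intro n
    induction n with
    | zero => simp
    | succ n ih =>
      rw [pow_succ, RatFunc.intDegree_mul (pow_ne_zero _ RatFunc.X_ne_zero) RatFunc.X_ne_zero, ih,
        RatFunc.intDegree_X]
      push_cast; ring
  obtain ⟨n, rfl | rfl⟩ := c.eq_nat_or_neg
  · simp [h]
  · simp [RatFunc.intDegree_inv, h]

theorem intDegree_X_zpow (c : ℤ) : ((RatFunc.X : RatFunc K) ^ c).intDegree = c := by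
  have h : ∀ n : ℕ, ((RatFunc.X : RatFunc K) ^ n).intDegree = n := by
    intro n
    induction n with
    | zero => simp
    | succ n ih =>
      rw [pow_succ, RatFunc.intDegree_mul (pow_ne_zero _ RatFunc.X_ne_zero) RatFunc.X_ne_zero, ih,
        RatFunc.intDegree_X]
      push_cast; ring
  obtain ⟨n, rfl | rfl⟩ := c.eq_nat_or_neg
  · simp [h]
  · simp [RatFunc.intDegree_inv, h]

variable (K) in
/-- `p ↦ p * X ^ c`. -/
noncomputable def mulXpow (c : ℤ) : K[X] →ₗ[K] RatFunc K :=
  (LinearMap.mulRight K ((RatFunc.X : RatFunc K) ^ c)).comp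
    (Algebra.linearMap K[X] (RatFunc K) |>.restrictScalars K)

theorem mulXpow_apply (c : ℤ) (p : K[X]) :
    mulXpow K c p = algebraMap K[X] (RatFunc K) p * RatFunc.X ^ c := rfl

theorem mulXpow_injective (c : ℤ) : Function.Injective (mulXpow K c) := by
  intro p q h
  rw [mulXpow_apply, mulXpow_apply] at h
  exact RatFunc.algebraMap_injective K
    (mul_right_cancel₀ (zpow_ne_zero _ RatFunc.X_ne_zero) h)

theorem mulXpow_mem_Mdeg_iff (c j : ℤ) {p : K[X]} (hp : p ≠ 0) :
    mulXpow K c p ∈ Mdeg K j ↔ (p.natDegree : ℤ) + c ≤ -j := by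
  have hp' : algebraMap K[X] (RatFunc K) p ≠ 0 := by simpa using hp
  have hX : (RatFunc.X : RatFunc K) ^ c ≠ 0 := zpow_ne_zero _ RatFunc.X_ne_zero
  rw [mulXpow_apply, mem_Mdeg_of_ne (mul_ne_zero hp' hX), RatFunc.intDegree_mul hp' hX,
    RatFunc.intDegree_polynomial, intDegree_X_zpow]

/-- the graded pieces of the degree filtration are one-dimensional. -/
theorem rl_Mdeg (i : ℤ) (m : ℕ) : rl (Mdeg K (i + m)) (Mdeg K i) = m := by
  set c : ℤ := 1 - i - m with hc
  set B : Submodule K (RatFunc K) := LinearMap.range (mulXpow K c) with hB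
  have hle : Mdeg K (i + m) ≤ Mdeg K i := Mdeg_anti (by omega)
  have h1 : Mdeg K (i + m) ⊓ B = ⊥ := by
    rw [eq_bot_iff]
    rintro q ⟨hq, p, rfl⟩
    by_cases hp : p = 0
    · simp [hp]
    · have := (mulXpow_mem_Mdeg_iff c (i + m) hp).1 hq
      omega
  have h2 : Mdeg K i ⊓ B = (Polynomial.degreeLT K m).map (mulXpow K c) := by
    ext q
    constructor
    · rintro ⟨hq, p, rfl⟩
      refine ⟨p, ?_, rfl⟩
      by_cases hp : p = 0
      · simp [hp]
      · have := (mulXpow_mem_Mdeg_iff c i hp).1 hq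
        rw [SetLike.mem_coe, Polynomial.mem_degreeLT, Polynomial.degree_eq_natDegree hp]
        exact_mod_cast (by omega : p.natDegree < m)
    · rintro ⟨p, hp, rfl⟩
      refine ⟨?_, p, rfl⟩
      by_cases hp0 : p = 0
      · simp [hp0]
      · rw [SetLike.mem_coe, Polynomial.mem_degreeLT, Polynomial.degree_eq_natDegree hp0] at hp
        have hp' : p.natDegree < m := by exact_mod_cast hp
        exact (mulXpow_mem_Mdeg_iff c i hp0).2 (by omega)
  have h3 : Mdeg K (i + m) ⊔ B = ⊤ := by
    rw [eq_top_iff]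
    intro q _
    obtain ⟨p, s, hs, hq⟩ := exists_poly_add (q * RatFunc.X ^ (-c))
    have hX : (RatFunc.X : RatFunc K) ^ c ≠ 0 := zpow_ne_zero _ RatFunc.X_ne_zero
    have hq' : q = s * RatFunc.X ^ c + mulXpow K c p := by
      rw [mulXpow_apply, ← add_mul, add_comm s, ← hq, mul_assoc, ← zpow_add₀ RatFunc.X_ne_zero]
      simp
    rw [hq']
    refine Submodule.add_mem_sup ?_ ⟨p, rfl⟩
    have := mul_mem_Mdeg hs (X_zpow_mem_Mdeg (K := K) c)
    have e : (1 : ℤ) + -c = i + m := by omega
    rwa [e] at this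
  have h4 : Mdeg K i ⊔ B = ⊤ := eq_top_iff.2 (h3 ▸ sup_le_sup_right hle B)
  have key := rl_step hle B
  rw [h1, h2, h3, h4, rl_self, add_zero, rl_bot] at key
  rw [← key, ← (Submodule.equivMapOfInjective _ (mulXpow_injective c) _).length_eq,
    (Polynomial.degreeLTEquiv K m).length_eq, Module.length_eq_finrank]
  simp

theorem span_Rinf_singleton {q : RatFunc K} (hq : q ≠ 0) :
    (span (Rinf K) {q}).restrictScalars K = Mdeg K (-q.intDegree) := by
  ext z
  rw [Submodule.restrictScalars_mem, Submodule.mem_span_singleton]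
  constructor
  · rintro ⟨r, rfl⟩
    by_cases hr : r = 0
    · left; simp [hr]
    · have hr' : (r : RatFunc K) ≠ 0 := by simpa using hr
      right
      have h1 : r • q = (r : RatFunc K) * q := rfl
      rw [h1, RatFunc.intDegree_mul hr' hq]
      have := r.2
      rw [mem_Rinf] at this
      omega
  · rintro (rfl | hz)
    · exact ⟨0, by simp⟩
    · by_cases hz0 : z = 0
      · exact ⟨0, by simp [hz0]⟩
      refine ⟨⟨z / q, ?_⟩, ?_⟩
      · rw [mem_Rinf, RatFunc.intDegree_div hz0 hq]
        omega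
      · show z / q * q = z
        exact div_mul_cancel₀ _ hq

theorem length_Rinf_quotient {a : Rinf K} (ha : a ≠ 0) :
    Module.length K (Rinf K ⧸ Ideal.span {a}) = (-(a : RatFunc K).intDegree).toNat := by
  have ha' : (a : RatFunc K) ≠ 0 := by simpa using ha
  have key := rl_span_smul K (Basis.singleton Unit (RatFunc K)) (fun _ => a)
  have e1 : (Set.range fun _ : Unit => a • (Basis.singleton Unit (RatFunc K)) ()) =
      {(a : RatFunc K)} := by
    ext z
    simp [Algebra.smul_def]
  have e2 : Set.range (Basis.singleton Unit (RatFunc K)) = {(1 : RatFunc K)} := by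
    ext z
    simp
  rw [e1, e2, span_Rinf_singleton ha', span_Rinf_singleton (one_ne_zero (α := RatFunc K))] at key
  simp only [Finset.univ_unique, Finset.sum_const, Finset.card_singleton, one_smul] at key
  rw [← key]
  have h0 := a.2
  rw [mem_Rinf] at h0
  have e3 : -(a : RatFunc K).intDegree = -(1 : RatFunc K).intDegree +
      ((-(a : RatFunc K).intDegree).toNat : ℤ) := by
    simp only [RatFunc.intDegree_one]
    omega
  conv_lhs => rw [e3]
  exact rl_Mdeg _ _

variable (K) in
/-- `(K[X], 𝒪_∞)` is a `ℙ¹`-datum. -/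
theorem isP1Datum : IsP1Datum K K[X] (Rinf K) (RatFunc K) where
  inf := by
    intro a b hab
    have hb := b.2
    rw [mem_Rinf] at hb
    have hab' : algebraMap K[X] (RatFunc K) a = (b : RatFunc K) := hab
    rw [← hab', RatFunc.intDegree_polynomial] at hb
    have h0 : a.natDegree = 0 := by omega
    refine ⟨a.coeff 0, ?_⟩
    conv_rhs => rw [Polynomial.eq_C_of_natDegree_eq_zero h0]
    rw [RatFunc.algebraMap_eq_C, RatFunc.algebraMap_C]
  sup := by
    intro q
    obtain ⟨p, s, hs, hq⟩ := exists_poly_add q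
    exact ⟨p, ⟨s, mem_Rinf_iff_Mdeg.2 (Mdeg_anti (by norm_num) hs)⟩, hq⟩
  fin₀ := by
    intro d hd
    have : Module.Finite K (K[X] ⧸ Ideal.span {d}) := (AdjoinRoot.powerBasis hd).finite
    rw [Module.length_eq_finrank]
    exact ENat.natCast_ne_top _
  fin₁ := by
    intro d hd
    rw [length_Rinf_quotient hd]
    exact ENat.natCast_ne_top _

end Fermat.Agent.RED.DRH
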