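import Fermat.Agent.RED.DRH.Param
import Fermat.Agent.RED.DRH.DiffRel
import Fermat.Agent.RED.DRH.DiffPlace
import Fermat.Agent.RED.RH.Model

/-!
# Riemann--Hurwitz for the Riemann genus, in place language
-/

set_option autoImplicit false
set_option linter.unusedSectionVars false
set_option linter.style.haveILetI false

open AlgebraicCurve IntermediateField Polynomial Module
open Fermat.Agent.S24

namespace Fermat.Agent.RED.DRH

section Rinf

variable {K : Type*} [Field K]

theorem isUnit_of_not_mem_span_piInf {r : Rinf K} (hr : r ∉ Ideal.span {piInf K 1}) :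
    IsUnit r := by
  have hr0 : r ≠ 0 := fun h => hr (h ▸ Ideal.zero_mem _)
  have hr0' : (r : RatFunc K) ≠ 0 := by simpa using hr0
  have h1 := r.2
  rw [mem_Rinf] at h1
  have h2 : ¬ (r : RatFunc K).intDegree < 0 := by
    intro hlt
    apply hr
    rw [Ideal.mem_span_singleton']
    refine ⟨⟨RatFunc.X * (r : RatFunc K), ?_⟩, ?_⟩
    · rw [mem_Rinf, RatFunc.intDegree_mul RatFunc.X_ne_zero hr0', RatFunc.intDegree_X]
      omega
    · apply Subtype.ext
      show RatFunc.X * (r : RatFunc K) * ((RatFunc.X : RatFunc K) ^ (-((1 : ℕ) : ℤ))) = (r : RatFunc K)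
      have hX : (RatFunc.X : RatFunc K) ≠ 0 := RatFunc.X_ne_zero
      rw [Nat.cast_one, zpow_neg_one]
      field_simp
  have h3 : (r : RatFunc K)⁻¹ ∈ Rinf K := by
    rw [mem_Rinf, RatFunc.intDegree_inv]
    omega
  refine IsUnit.of_mul_eq_one ⟨_, h3⟩ ?_
  apply Subtype.ext
  exact mul_inv_cancel₀ hr0'

theorem one_not_mem_span_piInf : (1 : Rinf K) ∉ Ideal.span {piInf K 1} := by
  intro h
  obtain ⟨a, ha⟩ := Ideal.mem_span_singleton'.1 h
  have h1 := congrArg (fun z : Rinf K => (z : RatFunc K).intDegree) ha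
  have ha0 : (a : RatFunc K) ≠ 0 := by
    intro h0
    have : a = 0 := Subtype.ext h0
    rw [this, zero_mul] at ha
    exact zero_ne_one ha
  have h2 : ((a * piInf K 1 : Rinf K) : RatFunc K) = (a : RatFunc K) * RatFunc.X ^ (-((1 : ℕ) : ℤ)) :=
    rfl
  rw [h2, RatFunc.intDegree_mul ha0 (zpow_ne_zero _ RatFunc.X_ne_zero), intDegree_X_zpow] at h1
  have h3 := a.2
  rw [mem_Rinf] at h3
  have h4 : ((1 : Rinf K) : RatFunc K).intDegree = 0 := RatFunc.intDegree_one
  rw [h4] at h1
  push_cast at h1
  omega

theorem isMaximal_span_piInf : (Ideal.span {piInf K 1}).IsMaximal := by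
  rw [Ideal.isMaximal_iff]
  refine ⟨one_not_mem_span_piInf, ?_⟩
  intro J x _ hx hxJ
  obtain ⟨u, rfl⟩ := isUnit_of_not_mem_span_piInf hx
  have := J.mul_mem_left (↑u⁻¹ : Rinf K) hxJ
  rwa [Units.inv_mul] at this

theorem eq_span_piInf_of_isMaximal {P : Ideal (Rinf K)} (hP : P.IsMaximal) :
    P = Ideal.span {piInf K 1} := by
  refine hP.eq_of_le isMaximal_span_piInf.ne_top ?_
  intro r hr
  by_contra hcon
  exact hP.ne_top (Ideal.eq_top_of_isUnit_mem _ hr (isUnit_of_not_mem_span_piInf hcon))

theorem resK_Rinf : ResK K (Rinf K) := by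
  intro P hP z
  obtain ⟨r, rfl⟩ := Ideal.Quotient.mk_surjective z
  obtain ⟨c, hc⟩ := (isP1_ratFunc K).const r r.2
  refine ⟨c, ?_⟩
  rw [IsScalarTower.algebraMap_apply K (Rinf K) (Rinf K ⧸ P), Ideal.Quotient.algebraMap_eq,
    Ideal.Quotient.eq, eq_span_piInf_of_isMaximal hP, Ideal.mem_span_singleton']
  refine ⟨-⟨_, hc⟩, ?_⟩
  apply Subtype.ext
  show -(RatFunc.X * ((r : RatFunc K) - algebraMap K (RatFunc K) c)) *
    ((RatFunc.X : RatFunc K) ^ (-((1 : ℕ) : ℤ))) = algebraMap K (RatFunc K) c - (r : RatFunc K)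
  have hX : (RatFunc.X : RatFunc K) ≠ 0 := RatFunc.X_ne_zero
  rw [Nat.cast_one, zpow_neg_one]
  field_simp
  ring

end Rinf

section Charts

variable {K F : Type*} [Field K] [Field F] [Algebra K F] [Algebra (RatFunc K) F] [Algebra K[X] F]
  [IsScalarTower K[X] (RatFunc K) F] [IsScalarTower K K[X] F] [IsScalarTower K (RatFunc K) F]
  [FiniteDimensional (RatFunc K) F] [Algebra.IsSeparable (RatFunc K) F]
  {x : F}

section chart0

variable (B : Type*) [CommRing B] [IsDedekindDomain B] [Algebra B F] [IsFractionRing B F]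
    [Algebra K[X] B] [IsScalarTower K[X] B F] [IsIntegralClosure B K[X] F] [IsTorsionFree K[X] B]
    [Algebra K B] [IsScalarTower K B F] [IsScalarTower K K[X] B]

theorem isMaximal_span_X_sub_C (c : K) : (Ideal.span {(X - C c : K[X])}).IsMaximal :=
  PrincipalIdealRing.isMaximal_of_irreducible (irreducible_X_sub_C c)

theorem span_X_sub_C_ne_bot (c : K) : Ideal.span {(X - C c : K[X])} ≠ ⊥ := by
  rw [Ne, Ideal.span_singleton_eq_bot]
  exact X_sub_C_ne_zero c

theorem span_X_sub_C_injective :
    Function.Injective (fun c : K => Ideal.span {(X - C c : K[X])}) := by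
  intro c c' h
  have h1 : (X - C c' : K[X]) ∈ Ideal.span {(X - C c : K[X])} := by
    have h2 : Ideal.span {(X - C c : K[X])} = Ideal.span {(X - C c' : K[X])} := h
    rw [h2]
    exact Ideal.mem_span_singleton_self _
  rw [Ideal.mem_span_singleton, dvd_iff_isRoot, IsRoot.def, eval_sub, eval_X, eval_C,
    sub_eq_zero] at h1
  exact h1

theorem exists_eq_span_X_sub_C [IsAlgClosed K] {p : Ideal K[X]} (hp : p.IsMaximal) :
    ∃ c : K, p = Ideal.span {(X - C c : K[X])} := by
  obtain ⟨c, hc⟩ := ResK.of_finiteType K K[X] p hp (Ideal.Quotient.mk p X)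
  refine ⟨c, ((isMaximal_span_X_sub_C c).eq_of_le hp.ne_top ?_).symm⟩
  rw [Ideal.span_singleton_le_iff_mem, ← Ideal.Quotient.eq, ← hc]
  rfl

theorem algebraMap_X_sub_C (hX : algebraMap (RatFunc K) F RatFunc.X = x) (c : K) :
    algebraMap K[X] F (X - C c) = x - algebraMap K F c := by
  rw [algebraMap_poly_eq_aeval hX, map_sub, aeval_X, aeval_C]

theorem ncard_primesOver_X_sub_C (hX : algebraMap (RatFunc K) F RatFunc.X = x)
    (hx : IsSepParam K x) (c : K) :
    ((Ideal.span {(X - C c : K[X])}).primesOver B).ncard =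
      Nat.card {v : Place K F // 0 < v.ord (x - algebraMap K F c)} := by
  haveI : Algebra.IsIntegral K[X] B := IsIntegralClosure.isIntegral_algebra K[X] F
  rw [ncard_primesOver_span (K := K) (F := F) B (X_sub_C_ne_zero c) (isMaximal_span_X_sub_C c)]
  refine Nat.card_congr (Equiv.subtypeEquivRight fun v => ?_)
  rw [algebraMap_X_sub_C hX]
  constructor
  · exact fun h => h.2
  · intro h
    refine ⟨?_, h⟩
    rw [inChart_iff_of_isIntegral B K[X] v]
    refine (poly_le_iff hX hx v).2 ?_
    have hne : x - algebraMap K F c ≠ 0 := by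
      intro h0
      rw [h0] at h
      simp at h
    have h1 : x - algebraMap K F c ∈ v.toValuationSubring :=
      (Place.mem_iff_ord_nonneg v hne).2 h.le
    have h2 : x ∈ v.toValuationSubring := by
      have := v.toValuationSubring.add_mem _ _ h1 (v.algebraMap_mem' c)
      rwa [sub_add_cancel] at this
    exact Place.ord_nonneg_of_mem v h2

theorem chart0_le [IsAlgClosed K] (hX : algebraMap (RatFunc K) F RatFunc.X = x)
    (hx : IsSepParam K x) (T : Finset K) :
    ∑ c ∈ T, ((finrank (RatFunc K) F : ℤ) -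
        Nat.card {v : Place K F // 0 < v.ord (x - algebraMap K F c)}) ≤
      (finrank K (B ⧸ differentIdeal K[X] B) : ℤ) := by
  classical
  haveI : Algebra.IsIntegral K[X] B := IsIntegralClosure.isIntegral_algebra K[X] F
  haveI : Module.Finite K[X] B := IsIntegralClosure.finite K[X] (RatFunc K) F B
  have hA := ResK.of_finiteType K K[X]
  have hB := ResK.of_integral K hA B
  have h := sum_le_finrank_quotient_differentIdeal K (RatFunc K) F hA hB
    (T.image (fun c : K => Ideal.span {(X - C c : K[X])})) (by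
      intro p hp
      obtain ⟨c, -, rfl⟩ := Finset.mem_image.1 hp
      exact ⟨isMaximal_span_X_sub_C c, span_X_sub_C_ne_bot c⟩)
  rw [Finset.sum_image (fun a _ b _ hab => span_X_sub_C_injective hab)] at h
  simp_rw [ncard_primesOver_X_sub_C B hX hx] at h
  exact h

theorem chart0_eq [IsAlgClosed K] [CharZero K] (hX : algebraMap (RatFunc K) F RatFunc.X = x)
    (hx : IsSepParam K x) (T : Finset K)
    (hT : ∀ c : K, c ∉ T → Nat.card {v : Place K F // 0 < v.ord (x - algebraMap K F c)} =
      finrank (RatFunc K) F) :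
    ∑ c ∈ T, ((finrank (RatFunc K) F : ℤ) -
        Nat.card {v : Place K F // 0 < v.ord (x - algebraMap K F c)}) =
      (finrank K (B ⧸ differentIdeal K[X] B) : ℤ) := by
  classical
  haveI : Algebra.IsIntegral K[X] B := IsIntegralClosure.isIntegral_algebra K[X] F
  haveI : Module.Finite K[X] B := IsIntegralClosure.finite K[X] (RatFunc K) F B
  have hA := ResK.of_finiteType K K[X]
  have hB := ResK.of_integral K hA B
  have h := sum_eq_finrank_quotient_differentIdeal K (RatFunc K) F hA hB
    (T.image (fun c : K => Ideal.span {(X - C c : K[X])})) (by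
      intro p hp
      obtain ⟨c, -, rfl⟩ := Finset.mem_image.1 hp
      exact ⟨isMaximal_span_X_sub_C c, span_X_sub_C_ne_bot c⟩)
    (fun P hP hP0 => tame_of_charZero K P hP hP0) (by
      intro p hpm _ hpS
      obtain ⟨c, rfl⟩ := exists_eq_span_X_sub_C hpm
      rw [ncard_primesOver_X_sub_C B hX hx]
      apply hT
      intro hc
      exact hpS (Finset.mem_image.2 ⟨c, hc, rfl⟩))
  rw [Finset.sum_image (fun a _ b _ hab => span_X_sub_C_injective hab)] at h
  simp_rw [ncard_primesOver_X_sub_C B hX hx] at h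
  exact h

end chart0

section chart1

variable (B : Type*) [CommRing B] [IsDedekindDomain B] [Algebra B F] [IsFractionRing B F]
    [Algebra (Rinf K) B] [IsScalarTower (Rinf K) B F] [IsIntegralClosure B (Rinf K) F]
    [IsTorsionFree (Rinf K) B]
    [Algebra K B] [IsScalarTower K B F] [IsScalarTower K (Rinf K) B]

theorem algebraMap_piInf_one (hX : algebraMap (RatFunc K) F RatFunc.X = x) :
    algebraMap (Rinf K) F (piInf K 1) = x⁻¹ := by
  show algebraMap (RatFunc K) F ((RatFunc.X : RatFunc K) ^ (-((1 : ℕ) : ℤ))) = x⁻¹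
  rw [Nat.cast_one, zpow_neg_one, map_inv₀, hX]

theorem inChart1_iff [IsAlgClosed K] (hX : algebraMap (RatFunc K) F RatFunc.X = x)
    (hx : IsSepParam K x) (v : Place K F) : InChart B v ↔ v.ord x < 0 := by
  haveI : Algebra.IsIntegral (Rinf K) B := IsIntegralClosure.isIntegral_algebra (Rinf K) F
  rw [inChart_iff_of_isIntegral B (Rinf K) v]
  exact Rinf_le_iff hX hx v

theorem ncard_primesOver_piInf [IsAlgClosed K] (hX : algebraMap (RatFunc K) F RatFunc.X = x)
    (hx : IsSepParam K x) :
    ((Ideal.span {piInf K 1}).primesOver B).ncard =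
      Nat.card {v : Place K F // v.ord x < 0} := by
  rw [ncard_primesOver_span (K := K) (F := F) (A := Rinf K) B (π := piInf K 1) (piInf_ne_zero 1)
    isMaximal_span_piInf]
  refine Nat.card_congr (Equiv.subtypeEquivRight fun v => ?_)
  rw [algebraMap_piInf_one hX, inChart1_iff B hX hx, Place.ord_inv]
  constructor
  · exact fun h => h.1
  · intro h
    exact ⟨h, by omega⟩

theorem span_piInf_ne_bot : Ideal.span {piInf K 1} ≠ ⊥ := by
  rw [Ne, Ideal.span_singleton_eq_bot]
  exact piInf_ne_zero 1

theorem chart1_le [IsAlgClosed K] (hX : algebraMap (RatFunc K) F RatFunc.X = x)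
    (hx : IsSepParam K x) :
    (finrank (RatFunc K) F : ℤ) - Nat.card {v : Place K F // v.ord x < 0} ≤
      (finrank K (B ⧸ differentIdeal (Rinf K) B) : ℤ) := by
  classical
  haveI : Algebra.IsIntegral (Rinf K) B := IsIntegralClosure.isIntegral_algebra (Rinf K) F
  haveI : Module.Finite (Rinf K) B := IsIntegralClosure.finite (Rinf K) (RatFunc K) F B
  have hA := resK_Rinf (K := K)
  have hB := ResK.of_integral K hA B
  have h := sum_le_finrank_quotient_differentIdeal K (RatFunc K) F hA hB
    {Ideal.span {piInf K 1}} (by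
      intro p hp
      rw [Finset.mem_singleton] at hp
      subst hp
      exact ⟨isMaximal_span_piInf, span_piInf_ne_bot⟩)
  rw [Finset.sum_singleton, ncard_primesOver_piInf B hX hx] at h
  exact h

theorem chart1_eq [IsAlgClosed K] [CharZero K] (hX : algebraMap (RatFunc K) F RatFunc.X = x)
    (hx : IsSepParam K x) :
    (finrank (RatFunc K) F : ℤ) - Nat.card {v : Place K F // v.ord x < 0} =
      (finrank K (B ⧸ differentIdeal (Rinf K) B) : ℤ) := by
  classical
  haveI : Algebra.IsIntegral (Rinf K) B := IsIntegralClosure.isIntegral_algebra (Rinf K) F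
  haveI : Module.Finite (Rinf K) B := IsIntegralClosure.finite (Rinf K) (RatFunc K) F B
  have hA := resK_Rinf (K := K)
  have hB := ResK.of_integral K hA B
  have h := sum_eq_finrank_quotient_differentIdeal K (RatFunc K) F hA hB
    {Ideal.span {piInf K 1}} (by
      intro p hp
      rw [Finset.mem_singleton] at hp
      subst hp
      exact ⟨isMaximal_span_piInf, span_piInf_ne_bot⟩)
    (fun P hP hP0 => tame_of_charZero K P hP hP0) (by
      intro p hpm _ hpS
      exact absurd (Finset.mem_singleton.2 (eq_span_piInf_of_isMaximal hpm)) hpS)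
  rw [Finset.sum_singleton, ncard_primesOver_piInf B hX hx] at h
  exact h

end chart1

/-- the genus formula ([RH-C1]) for arbitrary integral closures. -/
theorem genus_formula' [IsAlgClosed K]
    (B₀ : Type*) [CommRing B₀] [IsDedekindDomain B₀] [Algebra B₀ F] [IsFractionRing B₀ F]
    [Algebra K[X] B₀] [IsScalarTower K[X] B₀ F] [IsIntegralClosure B₀ K[X] F]
    [IsTorsionFree K[X] B₀] [Algebra K B₀] [IsScalarTower K B₀ F] [IsScalarTower K K[X] B₀]
    (B₁ : Type*) [CommRing B₁] [IsDedekindDomain B₁] [Algebra B₁ F] [IsFractionRing B₁ F]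
    [Algebra (Rinf K) B₁] [IsScalarTower (Rinf K) B₁ F] [IsIntegralClosure B₁ (Rinf K) F]
    [IsTorsionFree (Rinf K) B₁] [Algebra K B₁] [IsScalarTower K B₁ F]
    [IsScalarTower K (Rinf K) B₁]
    (hX : algebraMap (RatFunc K) F RatFunc.X = x) (hx : IsSepParam K x)
    (hn : finrank (RatFunc K) F = finrank K⟮x⟯ F) :
    2 * gR K F - 2 = -2 * (finrank (RatFunc K) F : ℤ)
      + finrank K (B₀ ⧸ differentIdeal K[X] B₀)
      + finrank K (B₁ ⧸ differentIdeal (Rinf K) B₁) := by
  haveI : Algebra.IsIntegral K[X] B₀ := IsIntegralClosure.isIntegral_algebra K[X] F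
  haveI : Algebra.IsIntegral (Rinf K) B₁ := IsIntegralClosure.isIntegral_algebra (Rinf K) F
  have hB₀ := ResK.of_integral K (ResK.of_finiteType K K[X]) B₀
  have hB₁ := ResK.of_integral K (resK_Rinf (K := K)) B₁
  rw [two_gR_sub_two hX hx hn, disc0_eq K F B₀ hB₀, disc1_eq K F B₁ hB₁, hn]
  simp

theorem isTorsionFree_poly : IsTorsionFree K[X] F := by
  haveI : FaithfulSMul K[X] F := by
    rw [faithfulSMul_iff_algebraMap_injective, IsScalarTower.algebraMap_eq K[X] (RatFunc K) F]
    exact (algebraMap (RatFunc K) F).injective.comp (IsFractionRing.injective K[X] (RatFunc K))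
  infer_instance

/-- (RH-ge), generic `RatFunc` setting. -/
theorem rh_ge_generic [IsAlgClosed K] (hX : algebraMap (RatFunc K) F RatFunc.X = x)
    (hx : IsSepParam K x) (hn : finrank (RatFunc K) F = finrank K⟮x⟯ F) (T : Finset K) :
    -2 * (finrank K⟮x⟯ F : ℤ)
      + ∑ c ∈ T, ((finrank K⟮x⟯ F : ℤ)
          - Nat.card {v : Place K F // 0 < v.ord (x - algebraMap K F c)})
      + ((finrank K⟮x⟯ F : ℤ) - Nat.card {v : Place K F // v.ord x < 0}) ≤ 2 * gR K F - 2 := by
  haveI : IsTorsionFree K[X] F := isTorsionFree_poly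
  haveI : IsDedekindDomain (integralClosure K[X] F) :=
    integralClosure.isDedekindDomain K[X] (RatFunc K) F
  haveI : IsFractionRing (integralClosure K[X] F) F :=
    integralClosure.isFractionRing_of_finite_extension (RatFunc K) F
  haveI : IsDedekindDomain (integralClosure (Rinf K) F) :=
    integralClosure.isDedekindDomain (Rinf K) (RatFunc K) F
  haveI : IsFractionRing (integralClosure (Rinf K) F) F :=
    integralClosure.isFractionRing_of_finite_extension (RatFunc K) F
  haveI : IsTorsionFree K[X] (integralClosure K[X] F) := inferInstance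
  haveI : IsScalarTower K (integralClosure K[X] F) F := inferInstance
  haveI : IsScalarTower K K[X] (integralClosure K[X] F) := inferInstance
  haveI : IsTorsionFree (Rinf K) (integralClosure (Rinf K) F) := inferInstance
  haveI : IsScalarTower K (integralClosure (Rinf K) F) F := inferInstance
  haveI : IsScalarTower K (Rinf K) (integralClosure (Rinf K) F) := inferInstance
  haveI : IsScalarTower (Rinf K) (integralClosure (Rinf K) F) F :=
    IsScalarTower.of_algebraMap_eq' rfl
  haveI : IsIntegralClosure (integralClosure (Rinf K) F) (Rinf K) F := inferInstance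
  rw [genus_formula' (integralClosure K[X] F) (integralClosure (Rinf K) F) hX hx hn]
  have h0 := chart0_le (integralClosure K[X] F) hX hx T
  have h1 := chart1_le (integralClosure (Rinf K) F) hX hx
  rw [hn] at h0 h1 ⊢
  linarith

/-- (RH-tame), generic `RatFunc` setting. -/
theorem rh_tame_generic [IsAlgClosed K] [CharZero K]
    (hX : algebraMap (RatFunc K) F RatFunc.X = x)
    (hx : IsSepParam K x) (hn : finrank (RatFunc K) F = finrank K⟮x⟯ F) (T : Finset K)
    (hT : ∀ c : K, c ∉ T → Nat.card {v : Place K F // 0 < v.ord (x - algebraMap K F c)} =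
      finrank K⟮x⟯ F) :
    2 * gR K F - 2 = -2 * (finrank K⟮x⟯ F : ℤ)
      + ∑ c ∈ T, ((finrank K⟮x⟯ F : ℤ)
          - Nat.card {v : Place K F // 0 < v.ord (x - algebraMap K F c)})
      + ((finrank K⟮x⟯ F : ℤ) - Nat.card {v : Place K F // v.ord x < 0}) := by
  haveI : IsTorsionFree K[X] F := isTorsionFree_poly
  haveI : IsDedekindDomain (integralClosure K[X] F) :=
    integralClosure.isDedekindDomain K[X] (RatFunc K) F
  haveI : IsFractionRing (integralClosure K[X] F) F :=
    integralClosure.isFractionRing_of_finite_extension (RatFunc K) F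
  haveI : IsDedekindDomain (integralClosure (Rinf K) F) :=
    integralClosure.isDedekindDomain (Rinf K) (RatFunc K) F
  haveI : IsFractionRing (integralClosure (Rinf K) F) F :=
    integralClosure.isFractionRing_of_finite_extension (RatFunc K) F
  haveI : IsTorsionFree K[X] (integralClosure K[X] F) := inferInstance
  haveI : IsScalarTower K (integralClosure K[X] F) F := inferInstance
  haveI : IsScalarTower K K[X] (integralClosure K[X] F) := inferInstance
  haveI : IsTorsionFree (Rinf K) (integralClosure (Rinf K) F) := inferInstance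
  haveI : IsScalarTower K (integralClosure (Rinf K) F) F := inferInstance
  haveI : IsScalarTower K (Rinf K) (integralClosure (Rinf K) F) := inferInstance
  haveI : IsScalarTower (Rinf K) (integralClosure (Rinf K) F) F :=
    IsScalarTower.of_algebraMap_eq' rfl
  haveI : IsIntegralClosure (integralClosure (Rinf K) F) (Rinf K) F := inferInstance
  rw [genus_formula' (integralClosure K[X] F) (integralClosure (Rinf K) F) hX hx hn]
  have h0 := chart0_eq (integralClosure K[X] F) hX hx T (by rw [hn]; exact hT)
  have h1 := chart1_eq (integralClosure (Rinf K) F) hX hx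
  rw [hn] at h0 h1 ⊢
  linarith

end Charts

end Fermat.Agent.RED.DRH
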