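import Fermat.Agent.RED.DRH.Final
import Fermat.Agent.RED.DRH.Model
import Fermat.Agent.RED.RB.Defs

/-!
# (RH-ge) and (RH-tame) for a separating parameter, in place language
-/

set_option autoImplicit false
set_option linter.unusedSectionVars false
set_option linter.style.haveILetI false

open AlgebraicCurve IntermediateField Polynomial Module

namespace Fermat.Agent.RED

variable {K F : Type*} [Field K] [Field F] [Algebra K F] {x : F}

/-- **(RH-ge)**: the Riemann--Hurwitz inequality (any characteristic, wild ramification allowed). -/
theorem IsSepParam.rh_ge [IsAlgClosed K] (hx : IsSepParam K x) (T : Finset K) :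
    -2 * (finrank K⟮x⟯ F : ℤ)
      + ∑ c ∈ T, ((finrank K⟮x⟯ F : ℤ)
          - Nat.card {v : Place K F // 0 < v.ord (x - algebraMap K F c)})
      + ((finrank K⟮x⟯ F : ℤ) - Nat.card {v : Place K F // v.ord x < 0}) ≤ 2 * gR K F - 2 := by
  letI := DRH.ratAlgebra hx.transcendental
  letI := DRH.polyAlgebra K x
  haveI := DRH.isScalarTower_poly_rat hx.transcendental
  haveI := DRH.isScalarTower_K_poly (K := K) x
  haveI := DRH.isScalarTower_K_rat hx.transcendental
  haveI := DRH.finiteDimensional_rat hx
  haveI := DRH.isSeparable_rat hx
  exact DRH.rh_ge_generic (DRH.ratAlgebra_X hx.transcendental) hx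
    (DRH.finrank_rat hx.transcendental) T

/-- **(RH-tame)**: the Riemann--Hurwitz formula in characteristic zero. -/
theorem IsSepParam.rh_tame [IsAlgClosed K] [CharZero K] (hx : IsSepParam K x) :
    RB.RHTame K F x := by
  intro T hT
  letI := DRH.ratAlgebra hx.transcendental
  letI := DRH.polyAlgebra K x
  haveI := DRH.isScalarTower_poly_rat hx.transcendental
  haveI := DRH.isScalarTower_K_poly (K := K) x
  haveI := DRH.isScalarTower_K_rat hx.transcendental
  haveI := DRH.finiteDimensional_rat hx
  haveI := DRH.isSeparable_rat hx
  exact DRH.rh_tame_generic (DRH.ratAlgebra_X hx.transcendental) hx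
    (DRH.finrank_rat hx.transcendental) T hT

end Fermat.Agent.RED
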