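import Fermat.Agent.RED.DRH.Rel

/-!
# DRH1: lattices over a PID, relative lengths and duality
-/

set_option autoImplicit false
set_option linter.unusedSectionVars false

namespace Fermat.Agent.RED.DRH

open Module Submodule

section OneRing

variable (K : Type*) {R Q V : Type*} [Field K] [CommRing R] [IsDomain R] [Field Q]
  [Algebra K R] [Algebra R Q] [IsFractionRing R Q]
  [AddCommGroup V] [Module Q V] [Module R V] [Module K V] [IsScalarTower R Q V]
  [IsScalarTower K R V]

theorem rl_restrictScalars (Λ Λ' : Submodule R V) :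
    rl (Λ.restrictScalars K) (Λ'.restrictScalars K) =
      Module.length K (↥Λ' ⧸ Λ.submoduleOf Λ') := by
  unfold rl
  let e : ↥(Λ'.restrictScalars K) ≃ₗ[K] ↥Λ' :=
    { toFun := fun x => ⟨x.1, x.2⟩
      invFun := fun x => ⟨x.1, x.2⟩
      map_add' := fun _ _ => rfl
      map_smul' := fun _ _ => rfl
      left_inv := fun _ => rfl
      right_inv := fun _ => rfl }
  refine LinearEquiv.length_eq ?_
  refine (Submodule.Quotient.equiv _ ((Λ.submoduleOf Λ').restrictScalars K) e ?_).trans
    (Submodule.Quotient.restrictScalarsEquiv K _)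
  ext z
  rw [Submodule.mem_map_equiv]
  rfl

theorem rl_span_smul {ι : Type*} [Fintype ι] (b : Basis ι Q V) (a : ι → R) :
    rl ((span R (Set.range fun i => a i • b i)).restrictScalars K)
      ((span R (Set.range b)).restrictScalars K) =
      ∑ i, Module.length K (R ⧸ Ideal.span {a i}) := by
  classical
  rw [rl_restrictScalars]
  set bR := b.restrictScalars R with hbR
  let f : ↥(span R (Set.range b)) ≃ₗ[R] (ι → R) := bR.equivFun
  have hmap : ((span R (Set.range fun i => a i • b i)).submoduleOf (span R (Set.range b))).map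
      f.toLinearMap = Submodule.pi Set.univ (fun i => (Ideal.span {a i} : Submodule R R)) := by
    ext c
    rw [Submodule.mem_map_equiv, Submodule.mem_pi]
    have hc : ((f.symm c : ↥(span R (Set.range b))) : V) = ∑ i, c i • b i := by
      have : f.symm c = ∑ i, c i • bR i := Basis.equivFun_symm_apply bR c
      rw [this]
      simp [hbR, Basis.restrictScalars_apply]
    constructor
    · intro h i _
      have h' : ((f.symm c : ↥(span R (Set.range b))) : V) ∈
          span R (Set.range fun i => a i • b i) := h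
      obtain ⟨r, hr⟩ := (Submodule.mem_span_range_iff_exists_fun R).1 h'
      have h2 : f.symm c = f.symm (fun i => r i * a i) := by
        apply Subtype.ext
        have : f.symm (fun i => r i * a i) = ∑ i, (r i * a i) • bR i :=
          Basis.equivFun_symm_apply bR _
        rw [this, ← hr]
        simp [hbR, Basis.restrictScalars_apply, mul_smul]
      have h3 := f.symm.injective h2
      rw [h3]
      exact Ideal.mem_span_singleton'.2 ⟨r i, rfl⟩
    · intro h
      show ((f.symm c : ↥(span R (Set.range b))) : V) ∈ span R (Set.range fun i => a i • b i)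
      rw [hc]
      refine Submodule.sum_mem _ fun i _ => ?_
      obtain ⟨s, hs⟩ := Ideal.mem_span_singleton'.1 (h i (Set.mem_univ i))
      rw [← hs, mul_smul]
      exact Submodule.smul_mem _ _ (Submodule.subset_span ⟨i, rfl⟩)
  have e1 := (Submodule.Quotient.equiv _ _ f hmap).trans
    (Submodule.quotientPi (fun i => (Ideal.span {a i} : Submodule R R)))
  rw [(e1.restrictScalars K).length_eq, Module.length_pi_of_fintype]

variable (Q) in
/-- Smith normal form for a pair of lattices. -/
theorem exists_smith [IsPrincipalIdealRing R] {Λ Λ' : Submodule R V} [IsLattice Q Λ]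
    [IsLattice Q Λ'] (h : Λ ≤ Λ') :
    ∃ (n : ℕ) (b : Basis (Fin n) Q V) (a : Fin n → R), (∀ i, a i ≠ 0) ∧
      Λ' = span R (Set.range b) ∧ Λ = span R (Set.range fun i => a i • b i) := by
  classical
  have : Module.Free R Λ' := IsLattice.free Q Λ'
  let b0 := Module.finBasis R Λ'
  have hrank : Module.finrank R (Λ.submoduleOf Λ') = Module.finrank R Λ' := by
    rw [(Submodule.submoduleOfEquivOfLe h).finrank_eq]
    exact congrArg Cardinal.toNat ((IsLattice.rank' Q Λ).trans (IsLattice.rank' Q Λ').symm)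
  obtain ⟨b', a, ab', hab⟩ := Submodule.exists_smith_normal_form_of_rank_eq b0 hrank
  refine ⟨_, b'.extendOfIsLattice Q, a, ?_, ?_, ?_⟩
  · intro i hi
    have := hab i
    rw [hi, zero_smul] at this
    exact ab'.ne_zero i (Subtype.ext this)
  · have h1 : Set.range (b'.extendOfIsLattice Q) = Λ'.subtype '' Set.range b' := by
      rw [← Set.range_comp]
      congr 1
      funext i
      simp
    rw [h1, ← Submodule.map_span, b'.span_eq, Submodule.map_top, Submodule.range_subtype]
  · have h1 : (Set.range fun i => a i • b'.extendOfIsLattice Q i) =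
        Λ'.subtype '' ((Λ.submoduleOf Λ').subtype '' Set.range ab') := by
      rw [← Set.range_comp, ← Set.range_comp]
      congr 1
      funext i
      simp [hab i]
    rw [h1, ← Submodule.map_span, ← Submodule.map_span, ab'.span_eq, Submodule.map_top,
      Submodule.range_subtype, Submodule.submoduleOf, Submodule.map_comap_subtype,
      inf_eq_right.2 h]

/-- relative lengths of lattices are finite. -/
theorem rl_ne_top [IsPrincipalIdealRing R]
    (hfin : ∀ d : R, d ≠ 0 → Module.length K (R ⧸ Ideal.span {d}) ≠ ⊤)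
    {Λ Λ' : Submodule R V} [IsLattice Q Λ] [IsLattice Q Λ'] (h : Λ ≤ Λ') :
    rl (Λ.restrictScalars K) (Λ'.restrictScalars K) ≠ ⊤ := by
  obtain ⟨n, b, a, ha, rfl, rfl⟩ := exists_smith Q h
  rw [rl_span_smul]
  exact (ENat.sum_lt_top.2 fun i _ => (hfin _ (ha i)).lt_top).ne

/-- duality of relative lengths. -/
theorem rl_dualSubmodule [IsPrincipalIdealRing R] (B : LinearMap.BilinForm Q V)
    (hB : B.Nondegenerate) {Λ Λ' : Submodule R V} [IsLattice Q Λ] [IsLattice Q Λ'] (h : Λ ≤ Λ') :
    rl ((B.dualSubmodule Λ').restrictScalars K) ((B.dualSubmodule Λ).restrictScalars K) =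
      rl (Λ.restrictScalars K) (Λ'.restrictScalars K) := by
  classical
  obtain ⟨n, b, a, ha, rfl, rfl⟩ := exists_smith Q h
  let w : Fin n → Qˣ := fun i => Units.mk0 (algebraMap R Q (a i))
    (by simpa using ha i)
  let b2 : Basis (Fin n) Q V := b.unitsSMul w
  have hb2 : (fun i => a i • b i) = ⇑b2 := by
    funext i
    simp [b2, w, Basis.unitsSMul_apply, Units.smul_def]
  let c := B.dualBasis hB b2
  have hc : ⇑(B.dualBasis hB b) = fun i => a i • c i := by
    funext i
    apply c.ext_elem
    intro j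
    rw [LinearMap.BilinForm.dualBasis_repr_apply, ← hb2]
    simp only [← IsScalarTower.algebraMap_smul Q (a _), map_smul, Finsupp.smul_apply,
      Basis.repr_self, LinearMap.BilinForm.apply_dualBasis_left, smul_eq_mul]
    by_cases hij : j = i
    · subst hij; simp
    · simp [hij]
  rw [rl_span_smul, hb2, LinearMap.BilinForm.dualSubmodule_span_of_basis B hB,
    LinearMap.BilinForm.dualSubmodule_span_of_basis B hB, hc, rl_span_smul]

omit [IsDomain R] [IsFractionRing R Q] in
theorem isLattice_span_basis {ι : Type*} [Finite ι] (b : Basis ι Q V) :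
    IsLattice Q (span R (Set.range b)) where
  fg := Submodule.fg_span (Set.finite_range b)
  span_eq_top := by rw [Submodule.span_span_of_tower, b.span_eq]

omit [IsDomain R] [IsFractionRing R Q] in
theorem dualSubmodule_anti (B : LinearMap.BilinForm Q V) {Λ Λ' : Submodule R V} (h : Λ ≤ Λ') :
    B.dualSubmodule Λ' ≤ B.dualSubmodule Λ :=
  fun _ hx y hy => hx y (h hy)

end OneRing

section TwoRings

variable (K R₀ R₁ Q : Type*) [Field K] [CommRing R₀] [IsDomain R₀] [IsPrincipalIdealRing R₀]
  [CommRing R₁] [IsDomain R₁] [IsPrincipalIdealRing R₁] [Field Q] [Algebra K R₀] [Algebra K R₁]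
  [Algebra K Q] [Algebra R₀ Q] [Algebra R₁ Q] [IsFractionRing R₀ Q] [IsFractionRing R₁ Q]

/-- the two affine (resp. local) rings of a `ℙ¹`-like curve: `h⁰(𝒪) = 1`, `h¹(𝒪) = 0`. -/
structure IsP1Datum : Prop where
  inf : ∀ (a : R₀) (b : R₁), algebraMap R₀ Q a = algebraMap R₁ Q b →
    ∃ c : K, algebraMap K Q c = algebraMap R₀ Q a
  sup : ∀ q : Q, ∃ (a : R₀) (b : R₁), q = algebraMap R₀ Q a + algebraMap R₁ Q b
  fin₀ : ∀ d : R₀, d ≠ 0 → Module.length K (R₀ ⧸ Ideal.span {d}) ≠ ⊤
  fin₁ : ∀ d : R₁, d ≠ 0 → Module.length K (R₁ ⧸ Ideal.span {d}) ≠ ⊤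

variable {K R₀ R₁ Q}
variable {V : Type*} [AddCommGroup V] [Module Q V] [Module R₀ V] [Module R₁ V] [Module K V]
  [IsScalarTower R₀ Q V] [IsScalarTower R₁ Q V] [IsScalarTower K R₀ V] [IsScalarTower K R₁ V]
  [IsScalarTower K Q V]

theorem IsP1Datum.inf_std (hD : IsP1Datum K R₀ R₁ Q) {ι : Type*} [Fintype ι] (b : Basis ι Q V) :
    (span R₀ (Set.range b)).restrictScalars K ⊓ (span R₁ (Set.range b)).restrictScalars K =
      span K (Set.range b) := by
  classical
  apply le_antisymm
  · rintro v ⟨h0, h1⟩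
    obtain ⟨r, hr⟩ := (Submodule.mem_span_range_iff_exists_fun R₀).1 h0
    obtain ⟨s, hs⟩ := (Submodule.mem_span_range_iff_exists_fun R₁).1 h1
    have hr' : ∀ i, b.repr v i = algebraMap R₀ Q (r i) := by
      intro i
      rw [← hr]
      simp_rw [← IsScalarTower.algebraMap_smul Q (r _) (b _)]
      rw [Basis.repr_sum_self]
    have hs' : ∀ i, b.repr v i = algebraMap R₁ Q (s i) := by
      intro i
      rw [← hs]
      simp_rw [← IsScalarTower.algebraMap_smul Q (s _) (b _)]
      rw [Basis.repr_sum_self]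
    have hc : ∀ i, ∃ c : K, algebraMap K Q c = algebraMap R₀ Q (r i) := fun i =>
      hD.inf (r i) (s i) ((hr' i).symm.trans (hs' i))
    choose c hc using hc
    rw [← hr]
    refine Submodule.sum_mem _ fun i _ => ?_
    rw [← IsScalarTower.algebraMap_smul Q (r i) (b i), ← hc i, IsScalarTower.algebraMap_smul]
    exact Submodule.smul_mem _ _ (Submodule.subset_span ⟨i, rfl⟩)
  · exact le_inf (Submodule.span_le_restrictScalars K R₀ _) (Submodule.span_le_restrictScalars K R₁ _)

theorem IsP1Datum.h0_std (hD : IsP1Datum K R₀ R₁ Q) {ι : Type*} [Fintype ι] (b : Basis ι Q V) :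
    h0 ((span R₀ (Set.range b)).restrictScalars K) ((span R₁ (Set.range b)).restrictScalars K) =
      Fintype.card ι := by
  unfold h0
  rw [hD.inf_std b]
  have hli : LinearIndependent K b := b.linearIndependent.restrict_scalars' K
  have : Module.Finite K (span K (Set.range b)) := Module.Finite.span_of_finite K (Set.finite_range b)
  rw [Module.length_eq_finrank, finrank_span_eq_card hli]

theorem IsP1Datum.h1_std (hD : IsP1Datum K R₀ R₁ Q) {ι : Type*} [Fintype ι] (b : Basis ι Q V) :
    h1 ((span R₀ (Set.range b)).restrictScalars K) ((span R₁ (Set.range b)).restrictScalars K) =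
      0 := by
  unfold h1
  rw [Module.length_eq_zero_iff, Submodule.Quotient.subsingleton_iff, eq_top_iff]
  intro v _
  rw [← b.sum_repr v]
  refine Submodule.sum_mem _ fun i _ => ?_
  obtain ⟨r, s, hrs⟩ := hD.sup (b.repr v i)
  rw [hrs, add_smul, IsScalarTower.algebraMap_smul, IsScalarTower.algebraMap_smul]
  refine Submodule.add_mem_sup ?_ ?_
  · exact Submodule.smul_mem (span R₀ (Set.range b)) _ (Submodule.subset_span ⟨i, rfl⟩)
  · exact Submodule.smul_mem (span R₁ (Set.range b)) _ (Submodule.subset_span ⟨i, rfl⟩)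

/-- **Duality of Euler characteristics** on a `ℙ¹`-like curve. -/
theorem IsP1Datum.chi_duality (hD : IsP1Datum K R₀ R₁ Q) [Module.Finite Q V]
    (B : LinearMap.BilinForm Q V) (hB : B.Nondegenerate)
    (Λ₀ : Submodule R₀ V) (Λ₁ : Submodule R₁ V) [IsLattice Q Λ₀] [IsLattice Q Λ₁] :
    h0 (Λ₀.restrictScalars K) (Λ₁.restrictScalars K) ≠ ⊤ ∧
    h1 (Λ₀.restrictScalars K) (Λ₁.restrictScalars K) ≠ ⊤ ∧
    h0 ((B.dualSubmodule Λ₀).restrictScalars K) ((B.dualSubmodule Λ₁).restrictScalars K) ≠ ⊤ ∧
    h1 ((B.dualSubmodule Λ₀).restrictScalars K) ((B.dualSubmodule Λ₁).restrictScalars K) ≠ ⊤ ∧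
    h0 (Λ₀.restrictScalars K) (Λ₁.restrictScalars K) +
      h0 ((B.dualSubmodule Λ₀).restrictScalars K) ((B.dualSubmodule Λ₁).restrictScalars K) =
    2 * Module.finrank Q V + h1 (Λ₀.restrictScalars K) (Λ₁.restrictScalars K) +
      h1 ((B.dualSubmodule Λ₀).restrictScalars K) ((B.dualSubmodule Λ₁).restrictScalars K) := by
  classical
  obtain ⟨n, b, -, -, hΛ₀, -⟩ := exists_smith Q (le_refl Λ₀)
  have hn : Module.finrank Q V = n := by rw [Module.finrank_eq_card_basis b, Fintype.card_fin]
  set S₁ : Submodule R₁ V := span R₁ (Set.range b) with hS₁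
  have : IsLattice Q S₁ := isLattice_span_basis b
  set T : Submodule R₁ V := S₁ ⊓ Λ₁ with hT
  have hTS : T ≤ S₁ := inf_le_left
  have hTΛ : T ≤ Λ₁ := inf_le_right
  have hs := rl_ne_top K hD.fin₁ hTS
  have ht := rl_ne_top K hD.fin₁ hTΛ
  have hsd := rl_dualSubmodule K B hB hTS
  have htd := rl_dualSubmodule K B hB hTΛ
  have e0 : h0 (S₁.restrictScalars K) (Λ₀.restrictScalars K) = n := by
    rw [h0_comm, hΛ₀, hD.h0_std b, Fintype.card_fin]
  have e1 : h1 (S₁.restrictScalars K) (Λ₀.restrictScalars K) = 0 := by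
    rw [h1_comm, hΛ₀, hD.h1_std b]
  have e0' : h0 ((B.dualSubmodule S₁).restrictScalars K)
      ((B.dualSubmodule Λ₀).restrictScalars K) = n := by
    rw [h0_comm, hΛ₀, hS₁, LinearMap.BilinForm.dualSubmodule_span_of_basis B hB,
      LinearMap.BilinForm.dualSubmodule_span_of_basis B hB, hD.h0_std, Fintype.card_fin]
  have e1' : h1 ((B.dualSubmodule S₁).restrictScalars K)
      ((B.dualSubmodule Λ₀).restrictScalars K) = 0 := by
    rw [h1_comm, hΛ₀, hS₁, LinearMap.BilinForm.dualSubmodule_span_of_basis B hB,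
      LinearMap.BilinForm.dualSubmodule_span_of_basis B hB, hD.h1_std]
  have mTS : T.restrictScalars K ≤ S₁.restrictScalars K := hTS
  have mTΛ : T.restrictScalars K ≤ Λ₁.restrictScalars K := hTΛ
  have dTS : (B.dualSubmodule S₁).restrictScalars K ≤ (B.dualSubmodule T).restrictScalars K :=
    dualSubmodule_anti B hTS
  have dTΛ : (B.dualSubmodule Λ₁).restrictScalars K ≤ (B.dualSubmodule T).restrictScalars K :=
    dualSubmodule_anti B hTΛ
  have E2 := chi_step mTS (Λ₀.restrictScalars K)
  have E3 := chi_step mTΛ (Λ₀.restrictScalars K)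
  have E2' := chi_step dTS ((B.dualSubmodule Λ₀).restrictScalars K)
  have E3' := chi_step dTΛ ((B.dualSubmodule Λ₀).restrictScalars K)
  have I1 := h0_mono mTS (Λ₀.restrictScalars K)
  have I2 := h1_anti dTS ((B.dualSubmodule Λ₀).restrictScalars K)
  have I3 := h0_le_add mTΛ (Λ₀.restrictScalars K)
  have I4 := h1_anti mTΛ (Λ₀.restrictScalars K)
  have I5 := h0_mono dTΛ ((B.dualSubmodule Λ₀).restrictScalars K)
  have I6 := h1_le_add dTΛ ((B.dualSubmodule Λ₀).restrictScalars K)
  rw [h0_comm (Λ₀.restrictScalars K), h1_comm (Λ₀.restrictScalars K),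
    h0_comm ((B.dualSubmodule Λ₀).restrictScalars K),
    h1_comm ((B.dualSubmodule Λ₀).restrictScalars K), hn]
  rw [hsd] at E2'
  rw [htd] at E3' I6
  rw [e0, e1] at E2
  rw [e0] at I1
  rw [e0', e1'] at E2'
  rw [e1'] at I2
  generalize h0 (Λ₁.restrictScalars K) (Λ₀.restrictScalars K) = x at *
  generalize h1 (Λ₁.restrictScalars K) (Λ₀.restrictScalars K) = y at *
  generalize h0 ((B.dualSubmodule Λ₁).restrictScalars K)
    ((B.dualSubmodule Λ₀).restrictScalars K) = x' at *
  generalize h1 ((B.dualSubmodule Λ₁).restrictScalars K)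
    ((B.dualSubmodule Λ₀).restrictScalars K) = y' at *
  generalize h0 (T.restrictScalars K) (Λ₀.restrictScalars K) = a at *
  generalize h1 (T.restrictScalars K) (Λ₀.restrictScalars K) = a' at *
  generalize h0 ((B.dualSubmodule T).restrictScalars K)
    ((B.dualSubmodule Λ₀).restrictScalars K) = u at *
  generalize h1 ((B.dualSubmodule T).restrictScalars K)
    ((B.dualSubmodule Λ₀).restrictScalars K) = u' at *
  generalize rl (T.restrictScalars K) (S₁.restrictScalars K) = s at *
  generalize rl (T.restrictScalars K) (Λ₁.restrictScalars K) = t at *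
  lift s to ℕ using hs
  lift t to ℕ using ht
  have ha : a ≠ ⊤ := ne_top_of_le_ne_top (ENat.natCast_ne_top n) I1
  lift a to ℕ using ha
  have hu' : u' = 0 := by simpa using I2
  subst hu'
  have ha' : a' ≠ ⊤ := by
    rintro rfl
    simp at E2
    exact absurd E2.symm (by exact_mod_cast ENat.natCast_ne_top (a + s))
  lift a' to ℕ using ha'
  have hu : u ≠ ⊤ := by
    rintro rfl
    simp at E2'
    exact absurd E2'.symm (by exact_mod_cast ENat.natCast_ne_top (n + s))
  lift u to ℕ using hu
  have hx : x ≠ ⊤ := ne_top_of_le_ne_top (by exact_mod_cast ENat.natCast_ne_top (a + t)) I3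
  have hy : y ≠ ⊤ := ne_top_of_le_ne_top (ENat.natCast_ne_top a') I4
  have hx' : x' ≠ ⊤ := ne_top_of_le_ne_top (ENat.natCast_ne_top u) I5
  have hy' : y' ≠ ⊤ := ne_top_of_le_ne_top (by simp) I6
  refine ⟨hx, hy, hx', hy', ?_⟩
  lift x to ℕ using hx
  lift y to ℕ using hy
  lift x' to ℕ using hx'
  lift y' to ℕ using hy'
  norm_cast at *
  omega

end TwoRings

end Fermat.Agent.RED.DRH
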