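import Fermat.Agent.RED.DRH.FF
import Fermat.Agent.RED.FF.Riemann

/-!
# DRH: bridge to the place language (`IsSepParam`, `riemannRochSpace`, `gR`)
-/

set_option autoImplicit false
set_option linter.unusedSectionVars false

open AlgebraicCurve IntermediateField Polynomial
open Fermat.Agent.S24

namespace Fermat.Agent.RED.DRH

section Integral

variable {K F : Type*} [Field K] [Field F] [Algebra K F] {x : F}

/-- integrality over a `K`-algebra is tested on places. -/
theorem isIntegral_iff_forall_place (hx : IsSepParam K x) (R : Type*) [CommRing R] [Algebra R F]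
    [Algebra K R] [IsScalarTower K R F] (f : F) :
    IsIntegral R f ↔ ∀ v : Place K F, (∀ r : R, algebraMap R F r ∈ v.toValuationSubring) →
      f ∈ v.toValuationSubring := by
  constructor
  · intro hf v hv
    obtain ⟨p, hp, hp0⟩ := hf
    let φ : R →+* v.toValuationSubring :=
      (algebraMap R F).codRestrict v.toValuationSubring.toSubring hv
    have h1 : IsIntegral v.toValuationSubring f := by
      refine ⟨p.map φ, hp.map φ, ?_⟩
      rw [Polynomial.eval₂_map]
      exact hp0
    obtain ⟨z, hz⟩ := IsIntegrallyClosed.isIntegral_iff.1 h1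
    rw [← hz]
    exact z.2
  · intro h
    by_contra hf
    let R' : Subring F := (integralClosure R F).toSubring
    have : IsIntegrallyClosedIn R' F := by
      rw [Subring.isIntegrallyClosedIn_iff]
      intro z hz
      have hz' : IsIntegral (integralClosure R F) z := hz
      exact isIntegral_trans z hz'
    obtain ⟨V, hRV, hfV⟩ := Subring.exists_le_valuationSubring_of_isIntegrallyClosedIn
      (x := f) (R := R') (fun h => hf h)
    have hV : V ≠ ⊤ := fun h => hfV (h ▸ ValuationSubring.mem_top f)
    have hR : ∀ r : R, algebraMap R F r ∈ V := fun r =>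
      hRV (show algebraMap R F r ∈ integralClosure R F from isIntegral_algebraMap)
    obtain ⟨v, hv⟩ := hx.exists_place_eq' V
      (fun a => by rw [IsScalarTower.algebraMap_apply K R F]; exact hR _) hV
    apply hfV
    rw [← hv]
    exact h v (fun r => by rw [hv]; exact hR r)

/-- at a pole of `x`, `ord p(x) = deg p * ord x`. -/
theorem ord_aeval_of_pole (v : Place K F) (hv : v.ord x < 0) {p : K[X]} (hp : p ≠ 0) :
    v.ord (aeval x p) = p.natDegree * v.ord x := by
  have hx0 : x ≠ 0 := by
    rintro rfl
    simp at hv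
  have hxi : x⁻¹ ∈ v.toValuationSubring := by
    rw [Place.mem_iff_ord_nonneg v (inv_ne_zero hx0), Place.ord_inv]
    omega
  set q := p.reverse with hq
  have hq0 : q.coeff 0 ≠ 0 := by
    rw [hq, Polynomial.coeff_zero_reverse]
    exact Polynomial.leadingCoeff_ne_zero.2 hp
  have h1 : aeval x⁻¹ q * x ^ p.natDegree = aeval x p := by
    let _ : Invertible x := invertibleOfNonzero hx0
    have := Polynomial.eval₂_reverse_mul_pow (algebraMap K F) x p
    rw [invOf_eq_inv] at this
    exact this
  have h2 : aeval x⁻¹ q = algebraMap K F (q.coeff 0) + x⁻¹ * aeval x⁻¹ q.divX := by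
    conv_lhs => rw [← Polynomial.divX_mul_X_add q]
    rw [map_add, map_mul, aeval_X, aeval_C]
    ring
  have hc0 : algebraMap K F (q.coeff 0) ≠ 0 := by simpa using hq0
  have h3 : v.ord (aeval x⁻¹ q) = 0 := by
    by_cases hz : x⁻¹ * aeval x⁻¹ q.divX = 0
    · rw [h2, hz, add_zero, Place.ord_algebraMap]
    · have hz' : aeval x⁻¹ q.divX ≠ 0 := right_ne_zero_of_mul hz
      have hmem : aeval x⁻¹ q.divX ∈ v.toValuationSubring := by
        have := IsFiniteParam.polyRing_le (K := K) (y := x⁻¹) v.toValuationSubring
          v.algebraMap_mem' hxi ⟨aeval x⁻¹ q.divX, Polynomial.aeval_mem_adjoin_singleton _ _⟩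
        exact this
      have h4 : 0 ≤ v.ord (aeval x⁻¹ q.divX) := Place.ord_nonneg_of_mem v hmem
      have h5 : v.ord (algebraMap K F (q.coeff 0)) < v.ord (x⁻¹ * aeval x⁻¹ q.divX) := by
        rw [Place.ord_algebraMap, Place.ord_mul _ (inv_ne_zero hx0) hz', Place.ord_inv]
        omega
      rw [h2, Place.ord_add_eq_of_lt v hc0 hz h5, Place.ord_algebraMap]
  have hne : aeval x⁻¹ q ≠ 0 := by
    intro h0
    rw [h2] at h0
    by_cases hz : x⁻¹ * aeval x⁻¹ q.divX = 0
    · rw [hz, add_zero] at h0; exact hc0 h0
    · have hz' : aeval x⁻¹ q.divX ≠ 0 := right_ne_zero_of_mul hz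
      have hmem : aeval x⁻¹ q.divX ∈ v.toValuationSubring := by
        have := IsFiniteParam.polyRing_le (K := K) (y := x⁻¹) v.toValuationSubring
          v.algebraMap_mem' hxi ⟨aeval x⁻¹ q.divX, Polynomial.aeval_mem_adjoin_singleton _ _⟩
        exact this
      have h4 : 0 ≤ v.ord (aeval x⁻¹ q.divX) := Place.ord_nonneg_of_mem v hmem
      have e : x⁻¹ * aeval x⁻¹ q.divX = - algebraMap K F (q.coeff 0) := by
        linear_combination h0
      have h5 := congrArg v.ord e
      rw [Place.ord_neg, Place.ord_algebraMap, Place.ord_mul _ (inv_ne_zero hx0) hz',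
        Place.ord_inv] at h5
      omega
  rw [← h1, Place.ord_mul _ hne (pow_ne_zero _ hx0), h3, Place.ord_pow, zero_add]

end Integral

section Generic

variable {K F : Type*} [Field K] [Field F] [Algebra K F] [Algebra (RatFunc K) F] [Algebra K[X] F]
  [IsScalarTower K[X] (RatFunc K) F] [IsScalarTower K K[X] F] [IsScalarTower K (RatFunc K) F]
  {x : F}

theorem algebraMap_poly_eq_aeval (hX : algebraMap (RatFunc K) F RatFunc.X = x) (p : K[X]) :
    algebraMap K[X] F p = aeval x p := by
  have h : IsScalarTower.toAlgHom K K[X] F = aeval x := by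
    apply Polynomial.algHom_ext
    rw [IsScalarTower.coe_toAlgHom', aeval_X, IsScalarTower.algebraMap_apply K[X] (RatFunc K) F,
      RatFunc.algebraMap_X, hX]
  exact DFunLike.congr_fun h p

theorem algebraMap_ratFunc_eq (hX : algebraMap (RatFunc K) F RatFunc.X = x) (r : RatFunc K) :
    algebraMap (RatFunc K) F r = aeval x r.num / aeval x r.denom := by
  conv_lhs => rw [← RatFunc.num_div_denom r]
  rw [map_div₀, ← IsScalarTower.algebraMap_apply, ← IsScalarTower.algebraMap_apply,
    algebraMap_poly_eq_aeval hX, algebraMap_poly_eq_aeval hX]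

theorem poly_le_iff (hX : algebraMap (RatFunc K) F RatFunc.X = x) (hx : IsSepParam K x)
    (v : Place K F) :
    (∀ p : K[X], algebraMap K[X] F p ∈ v.toValuationSubring) ↔ 0 ≤ v.ord x := by
  rw [← Place.mem_iff_ord_nonneg v hx.ne_zero]
  constructor
  · intro h
    have := h Polynomial.X
    rwa [algebraMap_poly_eq_aeval hX, aeval_X] at this
  · intro h p
    rw [algebraMap_poly_eq_aeval hX]
    exact IsFiniteParam.polyRing_le (K := K) (y := x) v.toValuationSubring
      v.algebraMap_mem' h ⟨aeval x p, Polynomial.aeval_mem_adjoin_singleton _ _⟩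

theorem Rinf_le_iff [IsAlgClosed K] (hX : algebraMap (RatFunc K) F RatFunc.X = x)
    (hx : IsSepParam K x) (v : Place K F) :
    (∀ r : Rinf K, algebraMap (Rinf K) F r ∈ v.toValuationSubring) ↔ v.ord x < 0 := by
  have hinj : ∀ p : K[X], p ≠ 0 → aeval x p ≠ 0 := fun p hp h0 =>
    hp ((transcendental_iff.1 hx.transcendental) p h0)
  constructor
  · intro h
    by_contra hv
    rw [not_lt, ← Place.mem_iff_ord_nonneg v hx.ne_zero] at hv
    obtain ⟨c, hc | hc⟩ := hx.exists_value v hv
    · apply hx.transcendental
      rw [hc]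
      exact isAlgebraic_algebraMap c
    · have hne : (RatFunc.X - RatFunc.C c : RatFunc K) ≠ 0 := by
        intro h0
        have := congrArg (algebraMap (RatFunc K) F) h0
        rw [map_sub, hX, map_zero, ← RatFunc.algebraMap_eq_C,
          ← IsScalarTower.algebraMap_apply] at this
        rw [this] at hc
        simp at hc
      have hdeg : (RatFunc.X - RatFunc.C c : RatFunc K).intDegree = 1 := by
        have e : (RatFunc.X - RatFunc.C c : RatFunc K) =
            algebraMap K[X] (RatFunc K) (Polynomial.X - Polynomial.C c) := by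
          simp
        rw [e, RatFunc.intDegree_polynomial, Polynomial.natDegree_X_sub_C]
        rfl
      have hr : (RatFunc.X - RatFunc.C c : RatFunc K)⁻¹ ∈ Rinf K := by
        rw [mem_Rinf, RatFunc.intDegree_inv, hdeg]
        norm_num
      have h1 := h ⟨_, hr⟩
      have e1 : algebraMap (Rinf K) F ⟨_, hr⟩ = (x - algebraMap K F c)⁻¹ := by
        show algebraMap (RatFunc K) F (RatFunc.X - RatFunc.C c : RatFunc K)⁻¹ = _
        rw [map_inv₀, map_sub, hX, ← RatFunc.algebraMap_eq_C, ← IsScalarTower.algebraMap_apply]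
      rw [e1] at h1
      have h2 := Place.ord_nonneg_of_mem v h1
      rw [Place.ord_inv] at h2
      omega
  · intro hv r
    show algebraMap (RatFunc K) F (r : RatFunc K) ∈ _
    rw [algebraMap_ratFunc_eq hX]
    by_cases hn : (r : RatFunc K).num = 0
    · rw [hn, map_zero, zero_div]; exact zero_mem _
    · have hd := (r : RatFunc K).denom_ne_zero
      have hn' := hinj _ hn
      have hd' := hinj _ hd
      rw [Place.mem_iff_ord_nonneg v (div_ne_zero hn' hd'), div_eq_mul_inv,
        Place.ord_mul _ hn' (inv_ne_zero hd'), Place.ord_inv, ord_aeval_of_pole v hv hn,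
        ord_aeval_of_pole v hv hd]
      have h1 := r.2
      rw [mem_Rinf, RatFunc.intDegree] at h1
      nlinarith

variable [FiniteDimensional (RatFunc K) F] [Algebra.IsSeparable (RatFunc K) F]

/-- `Lm K F m` is the Riemann-Roch space of `m (x)_∞`. -/
theorem Lm_eq_riemannRochSpace [IsAlgClosed K] (hX : algebraMap (RatFunc K) F RatFunc.X = x)
    (hx : IsSepParam K x) (m : ℕ) : Lm K F m = riemannRochSpace (m • polarDiv K x) := by
  ext f
  by_cases hf : f = 0
  · simp [hf]
  have hx0 := hx.ne_zero
  have e1 : (RatFunc.X : RatFunc K) ^ (-(m : ℤ)) • f = (x ^ m)⁻¹ * f := by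
    rw [Algebra.smul_def, map_zpow₀, hX, zpow_neg, zpow_natCast]
  have hne : (x ^ m)⁻¹ * f ≠ 0 := mul_ne_zero (inv_ne_zero (pow_ne_zero _ hx0)) hf
  rw [mem_Lm, mem_L_iff_of_ne_zero hf, isIntegral_iff_forall_place hx,
    isIntegral_iff_forall_place hx, e1]
  simp only [poly_le_iff hX hx, Rinf_le_iff hX hx, Finsupp.smul_apply, hx.polarDiv_apply,
    Place.mem_iff_ord_nonneg _ hf, Place.mem_iff_ord_nonneg _ hne,
    Place.ord_mul _ (inv_ne_zero (pow_ne_zero m hx0)) hf, Place.ord_inv, Place.ord_pow]
  constructor
  · rintro ⟨h1, h2⟩ v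
    rcases lt_or_ge (v.ord x) 0 with h | h
    · have := h2 v h
      rw [max_eq_left (by omega)]
      simp only [nsmul_eq_mul]
      linarith
    · have := h1 v h
      rw [max_eq_right (by omega)]
      simpa using this
  · intro h
    refine ⟨fun v hv => ?_, fun v hv => ?_⟩
    · have := h v
      rw [max_eq_right (by omega)] at this
      simpa using this
    · have := h v
      rw [max_eq_left (by omega)] at this
      simp only [nsmul_eq_mul] at this
      linarith

/-- **Riemann-Hurwitz in discriminant form** for the Riemann genus. -/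
theorem two_gR_sub_two [IsAlgClosed K] (hX : algebraMap (RatFunc K) F RatFunc.X = x)
    (hx : IsSepParam K x) (hn : Module.finrank (RatFunc K) F = Module.finrank K⟮x⟯ F) :
    2 * gR K F - 2 = -2 * (Module.finrank K⟮x⟯ F : ℤ) + (disc0 K F).toNat + (disc1 K F).toNat := by
  obtain ⟨m₀, hm₀⟩ := exists_two_length_Lm K F
  obtain ⟨c, hc⟩ := hx.exists_riemann
  have hpos : 0 < Module.finrank K⟮x⟯ F := by
    have := hx.finite
    exact Module.finrank_pos
  set n := Module.finrank K⟮x⟯ F with hn'
  set m := max m₀ c.toNat with hm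
  have h1 := hm₀ m (le_max_left _ _)
  have hdeg : Divisor.degree (m • polarDiv K x) = m * n := by
    rw [map_nsmul, hx.degree_polarDiv, nsmul_eq_mul]
  have hcm : c ≤ Divisor.degree (m • polarDiv K x) := by
    rw [hdeg]
    have h2 : c ≤ (m : ℤ) := by
      have : c.toNat ≤ m := le_max_right _ _
      omega
    have h3 : (m : ℤ) ≤ m * n := by
      have : (1 : ℤ) ≤ n := by exact_mod_cast hpos
      nlinarith
    omega
  have h2 := hc _ hcm
  rw [hdeg] at h2
  have hfin : Module.Finite K (riemannRochSpace (m • polarDiv K x)) := hx.finite_L _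
  rw [Lm_eq_riemannRochSpace hX hx, Module.length_eq_finrank, hn] at h1
  have d0 := disc0_ne_top K F
  have d1 := disc1_ne_top K F
  generalize disc0 K F = a at *
  generalize disc1 K F = b at *
  lift a to ℕ using d0
  lift b to ℕ using d1
  simp only [ENat.toNat_natCast]
  have h3 : 2 * ell (m • polarDiv K x) + a + b = 2 * ((m + 1) * n) := by exact_mod_cast h1
  have h4 : (2 * (ell (m • polarDiv K x) : ℤ) + a + b) = 2 * ((m + 1) * n) := by exact_mod_cast h3
  rw [h2] at h4
  linarith

end Generic

end Fermat.Agent.RED.DRH
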