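import Mathlib

/-!
# DRH0: relative lengths of subspaces

`rl X Y` is the length of `Y / (X ⊓ Y)`, with values in `ℕ∞`, so that all additivity statements
hold without finiteness hypotheses.
-/

set_option autoImplicit false

namespace Fermat.Agent.RED.DRH

open Module Submodule

variable {K V : Type*} [Ring K] [AddCommGroup V] [Module K V]

/-- relative length of `Y / (X ⊓ Y)`. -/
noncomputable def rl (X Y : Submodule K V) : ℕ∞ := Module.length K (↥Y ⧸ X.submoduleOf Y)

theorem rl_sup_right (X Y : Submodule K V) : rl X (Y ⊔ X) = rl X Y := by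
  unfold rl
  refine (LinearEquiv.length_eq ?_).symm
  have e := LinearMap.quotientInfEquivSupQuotient Y X
  have h : comap Y.subtype (Y ⊓ X) = X.submoduleOf Y := by
    ext z
    simp [Submodule.submoduleOf]
  exact (Submodule.quotEquivOfEq _ _ h.symm).trans e

theorem rl_inf_left (X Y : Submodule K V) : rl (X ⊓ Y) Y = rl X Y := by
  unfold rl
  have h : (X ⊓ Y).submoduleOf Y = X.submoduleOf Y := by
    ext z
    simp [Submodule.submoduleOf]
  rw [h]

theorem rl_add {X Y Z : Submodule K V} (hXY : X ≤ Y) (hYZ : Y ≤ Z) :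
    rl X Z = rl X Y + rl Y Z := by
  unfold rl
  let f : (↥Y ⧸ X.submoduleOf Y) →ₗ[K] (↥Z ⧸ X.submoduleOf Z) :=
    Submodule.mapQ _ _ (Submodule.inclusion hYZ) (by
      intro z hz
      exact hz)
  let g : (↥Z ⧸ X.submoduleOf Z) →ₗ[K] (↥Z ⧸ Y.submoduleOf Z) :=
    Submodule.mapQ _ _ LinearMap.id (by
      intro z hz
      exact hXY hz)
  refine Module.length_eq_add_of_exact f g ?_ ?_ ?_
  · rw [← LinearMap.ker_eq_bot, LinearMap.ker_eq_bot']
    intro z hz
    obtain ⟨z, rfl⟩ := Submodule.Quotient.mk_surjective _ z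
    have h1 : f (Submodule.Quotient.mk z) = Submodule.Quotient.mk (Submodule.inclusion hYZ z) := rfl
    rw [h1, Submodule.Quotient.mk_eq_zero] at hz
    rw [Submodule.Quotient.mk_eq_zero]
    exact hz
  · intro z
    obtain ⟨z, rfl⟩ := Submodule.Quotient.mk_surjective _ z
    exact ⟨Submodule.Quotient.mk z, rfl⟩
  · intro z
    obtain ⟨z, rfl⟩ := Submodule.Quotient.mk_surjective _ z
    constructor
    · intro hz
      have h1 : g (Submodule.Quotient.mk z) = Submodule.Quotient.mk z := rfl
      rw [h1, Submodule.Quotient.mk_eq_zero] at hz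
      exact ⟨Submodule.Quotient.mk ⟨z.1, hz⟩, rfl⟩
    · rintro ⟨w, hw⟩
      obtain ⟨w, rfl⟩ := Submodule.Quotient.mk_surjective _ w
      rw [← hw]
      have h1 : g (f (Submodule.Quotient.mk w)) =
        Submodule.Quotient.mk (Submodule.inclusion hYZ w) := rfl
      rw [h1, Submodule.Quotient.mk_eq_zero]
      exact w.2

theorem rl_bot (Y : Submodule K V) : rl ⊥ Y = Module.length K ↥Y := by
  unfold rl
  have h : (⊥ : Submodule K V).submoduleOf Y = ⊥ := by
    ext z
    simp [Submodule.submoduleOf]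
  rw [h]
  exact (Submodule.quotEquivOfEqBot _ rfl).length_eq

theorem rl_top (X : Submodule K V) : rl X ⊤ = Module.length K (V ⧸ X) := by
  unfold rl
  refine LinearEquiv.length_eq ?_
  exact Submodule.Quotient.equiv _ _ (Submodule.topEquiv) (by
    ext z
    simp [Submodule.submoduleOf])

theorem rl_self (X : Submodule K V) : rl X X = 0 := by
  unfold rl
  rw [Module.length_eq_zero_iff]
  have h : X.submoduleOf X = ⊤ := by
    ext z
    simp [Submodule.submoduleOf]
  rw [h]
  infer_instance

theorem rl_eq_zero_of_le {X Y : Submodule K V} (h : Y ≤ X) : rl X Y = 0 := by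
  unfold rl
  rw [Module.length_eq_zero_iff]
  have h : X.submoduleOf Y = ⊤ := by
    ext z
    simpa [Submodule.submoduleOf] using h z.2
  rw [h]
  infer_instance

theorem le_of_rl_eq_zero {X Y : Submodule K V} (h : rl X Y = 0) : Y ≤ X := by
  unfold rl at h
  rw [Module.length_eq_zero_iff, Submodule.Quotient.subsingleton_iff] at h
  intro z hz
  have : (⟨z, hz⟩ : Y) ∈ X.submoduleOf Y := by rw [h]; trivial
  exact this

/-- the basic modular-law identity. -/
theorem rl_step {A A' : Submodule K V} (h : A ≤ A') (B : Submodule K V) :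
    rl (A ⊓ B) (A' ⊓ B) + rl (A ⊔ B) (A' ⊔ B) = rl A A' := by
  have h1 : rl A A' = rl A (A ⊔ A' ⊓ B) + rl (A ⊔ A' ⊓ B) A' :=
    rl_add le_sup_left (sup_le h inf_le_left)
  have h2 : rl A (A ⊔ A' ⊓ B) = rl (A ⊓ B) (A' ⊓ B) := by
    rw [sup_comm, rl_sup_right, ← rl_inf_left]
    congr 1
    rw [← inf_assoc, inf_eq_left.2 h]
  have h3 : rl (A ⊔ A' ⊓ B) A' = rl (A ⊔ B) (A' ⊔ B) := by
    have e1 : A ⊔ A' ⊓ B = (A ⊔ B) ⊓ A' := by
      rw [inf_comm A' B, sup_inf_assoc_of_le B h]
    rw [e1, rl_inf_left, ← rl_sup_right (A ⊔ B) A']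
    congr 1
    rw [← sup_assoc, sup_eq_left.2 h]
  rw [h1, h2, h3]

/-- `h⁰` of a pair of subspaces. -/
noncomputable def h0 (A B : Submodule K V) : ℕ∞ := Module.length K ↥(A ⊓ B)

/-- `h¹` of a pair of subspaces. -/
noncomputable def h1 (A B : Submodule K V) : ℕ∞ := Module.length K (V ⧸ (A ⊔ B))

theorem h0_comm (A B : Submodule K V) : h0 A B = h0 B A := by
  unfold h0; rw [inf_comm]

theorem h1_comm (A B : Submodule K V) : h1 A B = h1 B A := by
  unfold h1; rw [sup_comm]

theorem h0_step {A A' : Submodule K V} (h : A ≤ A') (B : Submodule K V) :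
    h0 A' B = h0 A B + rl (A ⊓ B) (A' ⊓ B) := by
  unfold h0
  rw [← rl_bot, ← rl_bot]
  exact rl_add bot_le (inf_le_inf_right B h)

theorem h1_step {A A' : Submodule K V} (h : A ≤ A') (B : Submodule K V) :
    h1 A B = rl (A ⊔ B) (A' ⊔ B) + h1 A' B := by
  unfold h1
  rw [← rl_top, ← rl_top]
  exact rl_add (sup_le_sup_right h B) le_top

/-- the Euler characteristic changes by the relative length (form without subtraction). -/
theorem chi_step {A A' : Submodule K V} (h : A ≤ A') (B : Submodule K V) :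
    h0 A' B + h1 A B = h0 A B + rl A A' + h1 A' B := by
  rw [h0_step h B, h1_step h B, ← rl_step h B]
  ring

theorem h0_mono {A A' : Submodule K V} (h : A ≤ A') (B : Submodule K V) : h0 A B ≤ h0 A' B := by
  rw [h0_step h B]; exact le_self_add

theorem h1_anti {A A' : Submodule K V} (h : A ≤ A') (B : Submodule K V) : h1 A' B ≤ h1 A B := by
  rw [h1_step h B]; exact le_add_self

theorem h0_le_add {A A' : Submodule K V} (h : A ≤ A') (B : Submodule K V) :
    h0 A' B ≤ h0 A B + rl A A' := by
  rw [h0_step h B, ← rl_step h B]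
  gcongr
  exact le_self_add

theorem h1_le_add {A A' : Submodule K V} (h : A ≤ A') (B : Submodule K V) :
    h1 A B ≤ rl A A' + h1 A' B := by
  rw [h1_step h B, ← rl_step h B]
  gcongr
  exact le_add_self

end Fermat.Agent.RED.DRH
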