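import Fermat.Agent.RED.DRH.Diff

/-!
# (T3) the different in a tower of integral closures

`R` a Dedekind `K`-algebra with fraction field `Q`, `Q ⊆ F₁ ⊆ F₂` finite separable, `B`, `C` the
integral closures of `R` in `F₁`, `F₂`.  Then
`deg Diff(C/R) ≥ [F₂:F₁] deg Diff(B/R) + ∑_{m ∈ S} ([F₂:F₁] #{primes of B over m} - #{primes of C over m})`.
-/

set_option autoImplicit false
set_option linter.unusedSectionVars false
set_option linter.style.haveILetI false

open Module

namespace Fermat.Agent.RED.DRH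

section primesOver

variable (A : Type*) [CommRing A] [IsDedekindDomain A]
  (B : Type*) [CommRing B] [IsDedekindDomain B] [Algebra A B] [IsTorsionFree A B] [Module.Finite A B]
  (C : Type*) [CommRing C] [IsDedekindDomain C] [Algebra A C] [Algebra B C] [IsScalarTower A B C]
  [IsTorsionFree A C] [Module.Finite A C] [IsTorsionFree B C] [Module.Finite B C]

variable {A} in
/-- primes in a tower. -/
theorem sum_ncard_primesOver_tower {m : Ideal A} (hm : m.IsMaximal) (hm0 : m ≠ ⊥) :
    ∑ p ∈ primesF A B m, (p.primesOver C).ncard = (m.primesOver C).ncard := by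
  classical
  have hS : ∀ p ∈ primesF A B m, p.IsMaximal ∧ p ≠ ⊥ := by
    intro p hp
    have h0 := ne_bot_of_mem_primesF hm hm0 hp
    exact ⟨((mem_primesF_iff hm hm0).1 hp).1.isMaximal h0, h0⟩
  have h1 : ∑ p ∈ primesF A B m, (p.primesOver C).ncard =
      ((primesF A B m).biUnion (primesF B C)).card := by
    rw [Finset.card_biUnion (fun p hp p' hp' hne =>
      pairwiseDisjoint_primesF (B := C) (primesF A B m) hS hp hp' hne)]
    refine Finset.sum_congr rfl fun p hp => ?_
    rw [card_primesF (hS p hp).1 (hS p hp).2]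
  rw [h1, ← card_primesF hm hm0]
  congr 1
  ext P
  rw [Finset.mem_biUnion, mem_primesF_iff hm hm0]
  constructor
  · rintro ⟨p, hp, hP⟩
    have hP' := (mem_primesF_iff (hS p hp).1 (hS p hp).2).1 hP
    have hp' := (mem_primesF_iff hm hm0).1 hp
    refine ⟨hP'.1, ⟨?_⟩⟩
    rw [← Ideal.under_under (B := B), ← hP'.2.over, ← hp'.2.over]
  · rintro ⟨hP, hover⟩
    have hp : P.under B ∈ primesF A B m := by
      rw [mem_primesF_iff hm hm0]
      refine ⟨Ideal.IsPrime.under B P, ⟨?_⟩⟩
      rw [Ideal.under_under, ← hover.over]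
    refine ⟨P.under B, hp, ?_⟩
    rw [mem_primesF_iff (hS _ hp).1 (hS _ hp).2]
    exact ⟨hP, ⟨rfl⟩⟩

end primesOver

section Tower

variable (K : Type*) [Field K] (R : Type*) [CommRing R] [IsDedekindDomain R] [Algebra K R]
  (Q : Type*) [Field Q] [Algebra R Q] [IsFractionRing R Q]
  (F₁ F₂ : Type*) [Field F₁] [Field F₂]
  [Algebra R F₁] [Algebra R F₂] [Algebra Q F₁] [Algebra Q F₂] [Algebra F₁ F₂]
  [IsScalarTower R Q F₁] [IsScalarTower R Q F₂] [IsScalarTower R F₁ F₂] [IsScalarTower Q F₁ F₂]
  [FiniteDimensional Q F₁] [FiniteDimensional Q F₂]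
  [Algebra.IsSeparable Q F₁] [Algebra.IsSeparable Q F₂]
  (B : Type*) [CommRing B] [IsDedekindDomain B] [Algebra R B] [Algebra B F₁] [IsScalarTower R B F₁]
  [IsIntegralClosure B R F₁] [IsFractionRing B F₁] [IsTorsionFree R B] [Algebra K B]
  [IsScalarTower K R B]
  (C : Type*) [CommRing C] [IsDedekindDomain C] [Algebra R C] [Algebra C F₂] [IsScalarTower R C F₂]
  [IsIntegralClosure C R F₂] [IsFractionRing C F₂] [IsTorsionFree R C] [Algebra K C]
  [IsScalarTower K R C]

include Q in
/-- (T3) **the degree of the different in a tower of integral closures.** -/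
theorem different_tower_ge (hB : ResK K B) (hC : ResK K C) (S : Finset (Ideal R))
    (hS : ∀ m ∈ S, m.IsMaximal ∧ m ≠ ⊥) :
    (finrank F₁ F₂ : ℤ) * finrank K (B ⧸ differentIdeal R B) +
      ∑ m ∈ S, ((finrank F₁ F₂ : ℤ) * (m.primesOver B).ncard - (m.primesOver C).ncard) ≤
      finrank K (C ⧸ differentIdeal R C) := by
  classical
  haveI : Module.Finite R B := IsIntegralClosure.finite R Q F₁ B
  haveI : Module.Finite R C := IsIntegralClosure.finite R Q F₂ C
  haveI : Algebra.IsIntegral R B := IsIntegralClosure.isIntegral_algebra R F₁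
  letI : Algebra B F₂ := ((algebraMap F₁ F₂).comp (algebraMap B F₁)).toAlgebra
  haveI : IsScalarTower B F₁ F₂ := IsScalarTower.of_algebraMap_eq fun _ => rfl
  haveI : IsScalarTower R B F₂ := IsScalarTower.of_algebraMap_eq fun r => by
    rw [IsScalarTower.algebraMap_apply R F₁ F₂, IsScalarTower.algebraMap_apply R B F₁]
    rfl
  letI : Algebra B C := (IsIntegralClosure.lift R C F₂ : B →ₐ[R] C).toRingHom.toAlgebra
  have hBC : ∀ b : B, algebraMap C F₂ (algebraMap B C b) = algebraMap B F₂ b :=
    fun b => IsIntegralClosure.algebraMap_lift R C F₂ b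
  haveI : IsScalarTower B C F₂ := IsScalarTower.of_algebraMap_eq fun b => (hBC b).symm
  haveI : IsScalarTower R B C := IsScalarTower.of_algebraMap_eq fun r =>
    ((IsIntegralClosure.lift R C F₂ : B →ₐ[R] C).commutes r).symm
  haveI : IsScalarTower K B C := IsScalarTower.of_algebraMap_eq fun c => by
    rw [IsScalarTower.algebraMap_apply K R C, IsScalarTower.algebraMap_apply K R B,
      ← IsScalarTower.algebraMap_apply R B C]
  haveI : IsTorsionFree B C := by
    rw [isTorsionFree_iff_algebraMap_injective]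
    intro b b' h
    have h1 := congrArg (algebraMap C F₂) h
    rw [hBC, hBC] at h1
    exact IsFractionRing.injective B F₁ ((algebraMap F₁ F₂).injective h1)
  haveI : Module.Finite B C := Module.Finite.of_restrictScalars_finite R B C
  haveI : Algebra.IsSeparable F₁ F₂ := Algebra.isSeparable_tower_top_of_isSeparable Q F₁ F₂
  have hT : ∀ p ∈ S.biUnion (primesF R B), p.IsMaximal ∧ p ≠ ⊥ := by
    intro p hp
    obtain ⟨m, hm, hp⟩ := Finset.mem_biUnion.1 hp
    have h0 := ne_bot_of_mem_primesF (hS m hm).1 (hS m hm).2 hp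
    exact ⟨((mem_primesF_iff (hS m hm).1 (hS m hm).2).1 hp).1.isMaximal h0, h0⟩
  have h5 := finrank_quotient_differentIdeal_tower K R B C Q F₁ F₂ hB hC
  have h3 := sum_le_finrank_quotient_differentIdeal K F₁ F₂ hB hC (S.biUnion (primesF R B)) hT
  rw [Finset.sum_biUnion (pairwiseDisjoint_primesF S hS)] at h3
  have h4 : ∀ m ∈ S, ∑ p ∈ primesF R B m, ((finrank F₁ F₂ : ℤ) - ((p.primesOver C).ncard : ℤ)) =
      (finrank F₁ F₂ : ℤ) * (m.primesOver B).ncard - (m.primesOver C).ncard := by
    intro m hm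
    rw [Finset.sum_sub_distrib, Finset.sum_const, ← Nat.cast_sum,
      sum_ncard_primesOver_tower B C (hS m hm).1 (hS m hm).2, card_primesF (hS m hm).1 (hS m hm).2,
      nsmul_eq_mul, mul_comm]
  rw [Finset.sum_congr rfl h4] at h3
  rw [h5]
  push_cast
  linarith

end Tower

end Fermat.Agent.RED.DRH
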