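import Fermat.Agent.RED.DRH.P1

/-!
# DRH: self-dual form of the duality theorem, and twisting at infinity
-/

set_option autoImplicit false
set_option linter.unusedSectionVars false

namespace Fermat.Agent.RED.DRH

open Module Submodule Polynomial

section OneRing

variable (K : Type*) {R Q V : Type*} [Field K] [CommRing R] [IsDomain R] [Field Q]
  [Algebra K R] [Algebra R Q] [IsFractionRing R Q]
  [AddCommGroup V] [Module Q V] [Module R V] [Module K V] [IsScalarTower R Q V]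
  [IsScalarTower K R V]

/-- `{v | q • v ∈ Λ}`. -/
def tw (q : Q) (Λ : Submodule R V) : Submodule R V :=
  Λ.comap ((q • (LinearMap.id : V →ₗ[Q] V)).restrictScalars R)

theorem mem_tw {q : Q} {Λ : Submodule R V} {v : V} : v ∈ tw q Λ ↔ q • v ∈ Λ := Iff.rfl

theorem le_tw (a : R) (Λ : Submodule R V) : Λ ≤ tw (algebraMap R Q a) Λ := by
  intro v hv
  rw [mem_tw, IsScalarTower.algebraMap_smul]
  exact Λ.smul_mem a hv

theorem tw_span_basis {ι : Type*} (b : Basis ι Q V) {q : Q} (hq : q ≠ 0) :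
    tw q (span R (Set.range b)) = span R (Set.range fun i => q⁻¹ • b i) := by
  apply le_antisymm
  · intro v hv
    rw [mem_tw] at hv
    have h1 : v = q⁻¹ • (q • v) := by rw [smul_smul, inv_mul_cancel₀ hq, one_smul]
    rw [h1]
    generalize q • v = w at hv
    induction hv using Submodule.span_induction with
    | mem x hx =>
      obtain ⟨i, rfl⟩ := hx
      exact Submodule.subset_span ⟨i, rfl⟩
    | zero => simp
    | add x y _ _ hx hy => rw [smul_add]; exact Submodule.add_mem _ hx hy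
    | smul r x _ hx => rw [smul_comm]; exact Submodule.smul_mem _ _ hx
  · rw [Submodule.span_le]
    rintro _ ⟨i, rfl⟩
    rw [SetLike.mem_coe, mem_tw, smul_smul, mul_inv_cancel₀ hq, one_smul]
    exact Submodule.subset_span ⟨i, rfl⟩

variable (Q) in
theorem exists_basis_of_isLattice [IsPrincipalIdealRing R] (Λ : Submodule R V) [IsLattice Q Λ] :
    ∃ (n : ℕ) (b : Basis (Fin n) Q V), Λ = span R (Set.range b) := by
  obtain ⟨n, b, -, -, h, -⟩ := exists_smith Q (le_refl Λ)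
  exact ⟨n, b, h⟩

theorem isLattice_tw [IsPrincipalIdealRing R] {q : Q} (hq : q ≠ 0) (Λ : Submodule R V)
    [IsLattice Q Λ] : IsLattice Q (tw q Λ) := by
  obtain ⟨n, b, rfl⟩ := exists_basis_of_isLattice Q Λ
  rw [tw_span_basis b hq]
  have : (fun i => q⁻¹ • b i) = ⇑(b.unitsSMul fun _ => Units.mk0 q⁻¹ (inv_ne_zero hq)) := by
    funext i
    simp [Basis.unitsSMul_apply, Units.smul_def]
  rw [this]
  exact isLattice_span_basis _

theorem isLattice_dualSubmodule [IsPrincipalIdealRing R] (B : LinearMap.BilinForm Q V)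
    (hB : B.Nondegenerate) (Λ : Submodule R V) [IsLattice Q Λ] :
    IsLattice Q (B.dualSubmodule Λ) := by
  classical
  obtain ⟨n, b, rfl⟩ := exists_basis_of_isLattice Q Λ
  rw [LinearMap.BilinForm.dualSubmodule_span_of_basis B hB]
  exact isLattice_span_basis _

theorem rl_tw [IsPrincipalIdealRing R] {a : R} (ha : a ≠ 0) (Λ : Submodule R V) [IsLattice Q Λ] :
    rl (Λ.restrictScalars K) ((tw (algebraMap R Q a) Λ).restrictScalars K) =
      Module.finrank Q V * Module.length K (R ⧸ Ideal.span {a}) := by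
  obtain ⟨n, b, rfl⟩ := exists_basis_of_isLattice Q Λ
  have ha' : algebraMap R Q a ≠ 0 := by simpa using ha
  rw [tw_span_basis b ha']
  let b' : Basis (Fin n) Q V := b.unitsSMul fun _ => Units.mk0 (algebraMap R Q a)⁻¹
    (inv_ne_zero ha')
  have h1 : (fun i => (algebraMap R Q a)⁻¹ • b i) = ⇑b' := by
    funext i
    simp [b', Basis.unitsSMul_apply, Units.smul_def]
  have h2 : ⇑b = fun i => a • b' i := by
    funext i
    rw [← h1, ← IsScalarTower.algebraMap_smul Q a, smul_smul, mul_inv_cancel₀ ha', one_smul]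
  rw [h1]
  conv_lhs => rw [h2]
  rw [rl_span_smul, Module.finrank_eq_card_basis b]
  simp

end OneRing

section TwoRings

variable {K R₀ R₁ Q : Type*} [Field K] [CommRing R₀] [IsDomain R₀] [IsPrincipalIdealRing R₀]
  [CommRing R₁] [IsDomain R₁] [IsPrincipalIdealRing R₁] [Field Q] [Algebra K R₀] [Algebra K R₁]
  [Algebra K Q] [Algebra R₀ Q] [Algebra R₁ Q] [IsFractionRing R₀ Q] [IsFractionRing R₁ Q]
variable {V : Type*} [AddCommGroup V] [Module Q V] [Module R₀ V] [Module R₁ V] [Module K V]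
  [IsScalarTower R₀ Q V] [IsScalarTower R₁ Q V] [IsScalarTower K R₀ V] [IsScalarTower K R₁ V]
  [IsScalarTower K Q V]

/-- **Discriminant form of Riemann-Hurwitz**, abstract version:
`2 χ(Λ₀, Λ₁) + [Λ₀^∨ : Λ₀] + [Λ₁^∨ : Λ₁] = 2 n`. -/
theorem IsP1Datum.two_chi (hD : IsP1Datum K R₀ R₁ Q) [Module.Finite Q V]
    (B : LinearMap.BilinForm Q V) (hB : B.Nondegenerate)
    (Λ₀ : Submodule R₀ V) (Λ₁ : Submodule R₁ V) [IsLattice Q Λ₀] [IsLattice Q Λ₁]
    (h₀ : Λ₀ ≤ B.dualSubmodule Λ₀) (h₁ : Λ₁ ≤ B.dualSubmodule Λ₁) :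
    h0 (Λ₀.restrictScalars K) (Λ₁.restrictScalars K) ≠ ⊤ ∧
    h1 (Λ₀.restrictScalars K) (Λ₁.restrictScalars K) ≠ ⊤ ∧
    rl (Λ₀.restrictScalars K) ((B.dualSubmodule Λ₀).restrictScalars K) ≠ ⊤ ∧
    rl (Λ₁.restrictScalars K) ((B.dualSubmodule Λ₁).restrictScalars K) ≠ ⊤ ∧
    2 * h0 (Λ₀.restrictScalars K) (Λ₁.restrictScalars K) +
      rl (Λ₀.restrictScalars K) ((B.dualSubmodule Λ₀).restrictScalars K) +
      rl (Λ₁.restrictScalars K) ((B.dualSubmodule Λ₁).restrictScalars K) =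
    2 * Module.finrank Q V + 2 * h1 (Λ₀.restrictScalars K) (Λ₁.restrictScalars K) := by
  have : IsLattice Q (B.dualSubmodule Λ₀) := isLattice_dualSubmodule B hB Λ₀
  have : IsLattice Q (B.dualSubmodule Λ₁) := isLattice_dualSubmodule B hB Λ₁
  obtain ⟨f1, f2, f3, f4, key⟩ := hD.chi_duality B hB Λ₀ Λ₁
  have r0 := rl_ne_top K hD.fin₀ h₀
  have r1 := rl_ne_top K hD.fin₁ h₁
  have m0 : Λ₀.restrictScalars K ≤ (B.dualSubmodule Λ₀).restrictScalars K := h₀
  have m1 : Λ₁.restrictScalars K ≤ (B.dualSubmodule Λ₁).restrictScalars K := h₁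
  have E1 := chi_step m0 (Λ₁.restrictScalars K)
  have E2 := chi_step m1 ((B.dualSubmodule Λ₀).restrictScalars K)
  have I1 := h0_le_add m0 (Λ₁.restrictScalars K)
  have I2 := h1_anti m0 (Λ₁.restrictScalars K)
  rw [h0_comm ((B.dualSubmodule Λ₁).restrictScalars K), h1_comm (Λ₁.restrictScalars K),
    h0_comm (Λ₁.restrictScalars K), h1_comm ((B.dualSubmodule Λ₁).restrictScalars K)] at E2
  refine ⟨f1, f2, r0, r1, ?_⟩
  generalize h0 (Λ₀.restrictScalars K) (Λ₁.restrictScalars K) = x at *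
  generalize h1 (Λ₀.restrictScalars K) (Λ₁.restrictScalars K) = y at *
  generalize h0 ((B.dualSubmodule Λ₀).restrictScalars K)
    ((B.dualSubmodule Λ₁).restrictScalars K) = x' at *
  generalize h1 ((B.dualSubmodule Λ₀).restrictScalars K)
    ((B.dualSubmodule Λ₁).restrictScalars K) = y' at *
  generalize h0 ((B.dualSubmodule Λ₀).restrictScalars K) (Λ₁.restrictScalars K) = z at *
  generalize h1 ((B.dualSubmodule Λ₀).restrictScalars K) (Λ₁.restrictScalars K) = w at *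
  generalize rl (Λ₀.restrictScalars K) ((B.dualSubmodule Λ₀).restrictScalars K) = d0 at *
  generalize rl (Λ₁.restrictScalars K) ((B.dualSubmodule Λ₁).restrictScalars K) = d1 at *
  generalize Module.finrank Q V = n at *
  lift x to ℕ using f1
  lift y to ℕ using f2
  lift x' to ℕ using f3
  lift y' to ℕ using f4
  lift d0 to ℕ using r0
  lift d1 to ℕ using r1
  have hz : z ≠ ⊤ := ne_top_of_le_ne_top (by exact_mod_cast ENat.natCast_ne_top (x + d0)) I1
  have hw : w ≠ ⊤ := ne_top_of_le_ne_top (ENat.natCast_ne_top y) I2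
  lift z to ℕ using hz
  lift w to ℕ using hw
  norm_cast at *
  omega

/-- finiteness of `h⁰`, `h¹` for an arbitrary pair of lattices. -/
theorem IsP1Datum.finite (hD : IsP1Datum K R₀ R₁ Q) [Module.Finite Q V]
    (Λ₀ : Submodule R₀ V) (Λ₁ : Submodule R₁ V) [IsLattice Q Λ₀] [IsLattice Q Λ₁] :
    h0 (Λ₀.restrictScalars K) (Λ₁.restrictScalars K) ≠ ⊤ ∧
    h1 (Λ₀.restrictScalars K) (Λ₁.restrictScalars K) ≠ ⊤ := by
  obtain ⟨n, b, hΛ₀⟩ := exists_basis_of_isLattice Q Λ₀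
  set S₁ : Submodule R₁ V := span R₁ (Set.range b) with hS₁
  have : IsLattice Q S₁ := isLattice_span_basis b
  set T : Submodule R₁ V := S₁ ⊓ Λ₁ with hT
  have hTS : T ≤ S₁ := inf_le_left
  have hTΛ : T ≤ Λ₁ := inf_le_right
  have hs := rl_ne_top K hD.fin₁ hTS
  have ht := rl_ne_top K hD.fin₁ hTΛ
  have e0 : h0 (S₁.restrictScalars K) (Λ₀.restrictScalars K) = n := by
    rw [h0_comm, hΛ₀, hD.h0_std b, Fintype.card_fin]
  have e1 : h1 (S₁.restrictScalars K) (Λ₀.restrictScalars K) = 0 := by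
    rw [h1_comm, hΛ₀, hD.h1_std b]
  have mTS : T.restrictScalars K ≤ S₁.restrictScalars K := hTS
  have mTΛ : T.restrictScalars K ≤ Λ₁.restrictScalars K := hTΛ
  have I1 := h0_mono mTS (Λ₀.restrictScalars K)
  have I2 := h1_le_add mTS (Λ₀.restrictScalars K)
  have I3 := h0_le_add mTΛ (Λ₀.restrictScalars K)
  have I4 := h1_anti mTΛ (Λ₀.restrictScalars K)
  rw [e0] at I1
  rw [e1, add_zero] at I2
  rw [h0_comm (Λ₀.restrictScalars K), h1_comm (Λ₀.restrictScalars K)]
  have ha : h0 (T.restrictScalars K) (Λ₀.restrictScalars K) ≠ ⊤ :=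
    ne_top_of_le_ne_top (ENat.natCast_ne_top n) I1
  exact ⟨ne_top_of_le_ne_top (by simp [ha, ht]) I3,
    ne_top_of_le_ne_top (ne_top_of_le_ne_top hs I2) I4⟩

end TwoRings

section P1

variable {K : Type*} [Field K]
variable {V : Type*} [AddCommGroup V] [Module (RatFunc K) V] [Module K[X] V]
  [Module K V] [IsScalarTower K[X] (RatFunc K) V]
  [IsScalarTower K K[X] V] [IsScalarTower K (RatFunc K) V]

variable (K) in
/-- `X ^ (-m)` as an element of the local ring at infinity. -/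
noncomputable def piInf (m : ℕ) : Rinf K :=
  ⟨RatFunc.X ^ (-(m : ℤ)), by rw [mem_Rinf, intDegree_X_zpow]; omega⟩

theorem algebraMap_piInf (m : ℕ) :
    algebraMap (Rinf K) (RatFunc K) (piInf K m) = RatFunc.X ^ (-(m : ℤ)) := rfl

theorem piInf_ne_zero (m : ℕ) : piInf K m ≠ 0 := by
  intro h
  have := congrArg (algebraMap (Rinf K) (RatFunc K)) h
  rw [algebraMap_piInf, map_zero] at this
  exact zpow_ne_zero _ RatFunc.X_ne_zero this

theorem length_quotient_piInf (m : ℕ) :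
    Module.length K (Rinf K ⧸ Ideal.span {piInf K m}) = m := by
  rw [length_Rinf_quotient (piInf_ne_zero m)]
  have : ((piInf K m : Rinf K) : RatFunc K).intDegree = -(m : ℤ) := intDegree_X_zpow _
  rw [this]
  simp

theorem tw_mono_piInf (Λ₁ : Submodule (Rinf K) V) {m m' : ℕ} (h : m ≤ m') :
    tw ((RatFunc.X : RatFunc K) ^ (-(m : ℤ))) Λ₁ ≤ tw ((RatFunc.X : RatFunc K) ^ (-(m' : ℤ))) Λ₁ := by
  intro v hv
  rw [mem_tw] at hv ⊢
  obtain ⟨k, rfl⟩ := Nat.exists_eq_add_of_le h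
  have e : (RatFunc.X : RatFunc K) ^ (-((m + k : ℕ) : ℤ)) =
      algebraMap (Rinf K) (RatFunc K) (piInf K k) * RatFunc.X ^ (-(m : ℤ)) := by
    rw [algebraMap_piInf, ← zpow_add₀ RatFunc.X_ne_zero]
    congr 1
    push_cast
    ring
  rw [e, mul_smul, IsScalarTower.algebraMap_smul]
  exact Λ₁.smul_mem _ hv

theorem exists_mem_tw (Λ₁ : Submodule (Rinf K) V) [IsLattice (RatFunc K) Λ₁] (v : V) :
    ∃ m : ℕ, v ∈ tw ((RatFunc.X : RatFunc K) ^ (-(m : ℤ))) Λ₁ := by
  have hv : v ∈ span (RatFunc K) (Λ₁ : Set V) := by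
    rw [IsLattice.span_eq_top]; trivial
  induction hv using Submodule.span_induction with
  | mem x hx => exact ⟨0, by rw [mem_tw]; simpa using hx⟩
  | zero => exact ⟨0, Submodule.zero_mem _⟩
  | add x y _ _ hx hy =>
    obtain ⟨m, hm⟩ := hx
    obtain ⟨m', hm'⟩ := hy
    exact ⟨max m m', Submodule.add_mem _ (tw_mono_piInf Λ₁ (le_max_left _ _) hm)
      (tw_mono_piInf Λ₁ (le_max_right _ _) hm')⟩
  | smul q x _ hx =>
    obtain ⟨m, hm⟩ := hx
    rw [mem_tw] at hm
    refine ⟨m + q.intDegree.toNat, ?_⟩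
    rw [mem_tw]
    have hr : (RatFunc.X : RatFunc K) ^ (-(q.intDegree.toNat : ℤ)) * q ∈ Rinf K := by
      by_cases hq : q = 0
      · simp [hq]
      rw [mem_Rinf, RatFunc.intDegree_mul (zpow_ne_zero _ RatFunc.X_ne_zero) hq,
        intDegree_X_zpow]
      omega
    have e : (RatFunc.X : RatFunc K) ^ (-((m + q.intDegree.toNat : ℕ) : ℤ)) • q • x =
        (⟨_, hr⟩ : Rinf K) • ((RatFunc.X : RatFunc K) ^ (-(m : ℤ)) • x) := by
      rw [← IsScalarTower.algebraMap_smul (RatFunc K) (⟨_, hr⟩ : Rinf K), smul_smul, smul_smul]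
      congr 1
      show _ = (RatFunc.X : RatFunc K) ^ (-(q.intDegree.toNat : ℤ)) * q * _
      have : (RatFunc.X : RatFunc K) ^ (-((m + q.intDegree.toNat : ℕ) : ℤ)) =
          RatFunc.X ^ (-(q.intDegree.toNat : ℤ)) * RatFunc.X ^ (-(m : ℤ)) := by
        rw [← zpow_add₀ RatFunc.X_ne_zero]
        congr 1
        push_cast
        ring
      rw [this]
      ring
    rw [e]
    exact Λ₁.smul_mem _ hm

/-- for `m ≫ 0` the twisted pair has no `h¹` and `h⁰ = χ + m n`. -/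
theorem exists_twist [Module.Finite (RatFunc K) V] (Λ₀ : Submodule K[X] V)
    (Λ₁ : Submodule (Rinf K) V) [IsLattice (RatFunc K) Λ₀] [IsLattice (RatFunc K) Λ₁] :
    ∃ m₀ : ℕ, ∀ m : ℕ, m₀ ≤ m →
      h1 (Λ₀.restrictScalars K)
        ((tw ((RatFunc.X : RatFunc K) ^ (-(m : ℤ))) Λ₁).restrictScalars K) = 0 ∧
      h0 (Λ₀.restrictScalars K)
        ((tw ((RatFunc.X : RatFunc K) ^ (-(m : ℤ))) Λ₁).restrictScalars K) +
        h1 (Λ₀.restrictScalars K) (Λ₁.restrictScalars K) =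
      h0 (Λ₀.restrictScalars K) (Λ₁.restrictScalars K) + m * Module.finrank (RatFunc K) V := by
  classical
  obtain ⟨-, hfin⟩ := (isP1Datum K).finite Λ₀ Λ₁
  set W₀ : Submodule K V := Λ₀.restrictScalars K ⊔ Λ₁.restrictScalars K with hW₀
  have hfd : Module.Finite K (V ⧸ W₀) := by
    have h1 : IsFiniteLength K (V ⧸ W₀) := Module.length_ne_top_iff.1 hfin
    rw [isFiniteLength_iff_isNoetherian_isArtinian] at h1
    have := h1.1
    infer_instance
  obtain ⟨S, hS⟩ := hfd.fg_top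
  have hch : ∀ s : V ⧸ W₀, ∃ (v : V) (m : ℕ), W₀.mkQ v = s ∧
      v ∈ tw ((RatFunc.X : RatFunc K) ^ (-(m : ℤ))) Λ₁ := by
    intro s
    obtain ⟨v, rfl⟩ := W₀.mkQ_surjective s
    obtain ⟨m, hm⟩ := exists_mem_tw Λ₁ v
    exact ⟨v, m, rfl, hm⟩
  choose vv mm hv hm using hch
  refine ⟨S.sup mm, fun m hm₀ => ?_⟩
  have hle : Λ₁ ≤ tw ((RatFunc.X : RatFunc K) ^ (-(m : ℤ))) Λ₁ := by
    rw [← algebraMap_piInf]; exact le_tw _ _
  have hle' : Λ₁.restrictScalars K ≤
      (tw ((RatFunc.X : RatFunc K) ^ (-(m : ℤ))) Λ₁).restrictScalars K := hle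
  have hzero : h1 (Λ₀.restrictScalars K)
      ((tw ((RatFunc.X : RatFunc K) ^ (-(m : ℤ))) Λ₁).restrictScalars K) = 0 := by
    unfold h1
    rw [Module.length_eq_zero_iff, Submodule.Quotient.subsingleton_iff]
    set W : Submodule K V := Λ₀.restrictScalars K ⊔
      (tw ((RatFunc.X : RatFunc K) ^ (-(m : ℤ))) Λ₁).restrictScalars K with hW
    have hWW : W₀ ≤ W := sup_le_sup_left hle' _
    have h2 : W.map W₀.mkQ = ⊤ := by
      rw [eq_top_iff, ← hS, Submodule.span_le]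
      intro s hs
      refine ⟨vv s, ?_, hv s⟩
      exact Submodule.mem_sup_right (tw_mono_piInf Λ₁ ((Finset.le_sup hs).trans hm₀) (hm s))
    rw [Submodule.map_mkQ_eq_top] at h2
    rwa [sup_eq_right.2 hWW] at h2
  refine ⟨hzero, ?_⟩
  have E := chi_step hle' (Λ₀.restrictScalars K)
  rw [h0_comm _ (Λ₀.restrictScalars K), h1_comm _ (Λ₀.restrictScalars K),
    h0_comm _ (Λ₀.restrictScalars K), h1_comm _ (Λ₀.restrictScalars K), hzero, add_zero] at E
  rw [E, ← algebraMap_piInf, rl_tw K (piInf_ne_zero (K := K) m) Λ₁, length_quotient_piInf,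
    mul_comm]

end P1

end Fermat.Agent.RED.DRH
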